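import Fermat.Agent.Torsion.Descent.Card
import Mathlib.RingTheory.AlgebraicIndependent.TranscendenceBasis
import Mathlib.RingTheory.AlgebraicIndependent.Adjoin
import Mathlib.FieldTheory.AlgebraicClosure
import Mathlib.FieldTheory.IsAlgClosed.Classification
import Mathlib.Algebra.AlgebraicCard
import Mathlib.Analysis.Complex.Cardinality
import Mathlib.Analysis.Complex.Polynomial.Basic
import Mathlib.RingTheory.AdjoinRoot
import Mathlib.RingTheory.Polynomial.GaussLemma

/-!
# Lefschetz principle: reduction of the torsion count to `ℂ`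
-/

set_option autoImplicit false

noncomputable section

open AlgebraicCurve IntermediateField Polynomial

set_option maxHeartbeats 400000

namespace Fermat.Agent.Torsion.Descent

/-- A countable field of characteristic zero embeds into `ℂ`. -/
theorem exists_embedding_complex (k : Type*) [Field k] [CharZero k] [Countable k] :
    Nonempty (k →+* ℂ) := by
  obtain ⟨s, hs⟩ := exists_isTranscendenceBasis ℚ k
  obtain ⟨t, ht⟩ := exists_isTranscendenceBasis ℚ ℂ
  have : Infinite t := by
    by_contra hfin
    rw [not_infinite_iff_finite] at hfin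
    have h := IsAlgClosed.cardinal_le_max_transcendence_basis' _ ht
    have h1 : Cardinal.mk ℂ ≤ Cardinal.aleph0 := h.trans (by
      simp [Cardinal.mk_le_aleph0_iff, (inferInstance : Countable t)])
    exact not_countable_complex (Cardinal.mk_le_aleph0_iff.1 h1 |> fun h => Set.countable_univ_iff.2 h)
  obtain ⟨e, he⟩ := Countable.exists_injective_nat s
  set f : s → ℂ := fun i => ((Infinite.natEmbedding t (e i) : t) : ℂ)
  have hf : AlgebraicIndependent ℚ f :=
    ht.1.comp (fun i => Infinite.natEmbedding t (e i)) ((Infinite.natEmbedding t).injective.comp he)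
  set k0 := adjoin ℚ (Set.range ((↑) : s → k))
  letI : Algebra ℚ (FractionRing (MvPolynomial s ℚ)) := OreLocalization.instAlgebra
  have hg : k0 →+* ℂ :=
    (adjoin ℚ (Set.range f)).val.toRingHom.comp
      ((hs.1.aevalEquivField).symm.toRingEquiv.trans hf.aevalEquivField.toRingEquiv).toRingHom
  let := hg.toAlgebra
  have : Algebra.IsAlgebraic k0 k := hs.isAlgebraic_field
  exact ⟨(IsAlgClosed.lift : k →ₐ[k0] ℂ).toRingHom⟩

section fields

variable {K L : Type*} [Field K] [Field L] [Algebra K L] [IsAlgClosed K]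

theorem exists_algHom_of_finset (T : Finset L) :
    ∃ (R : Subalgebra K L) (_ : R →ₐ[K] K), GoodFor R T := by
  classical
  set R : Subalgebra K L := Algebra.adjoin K ((T ∪ T.image fun t => t⁻¹ : Finset L) : Set L)
  have hft : Algebra.FiniteType K R := (Subalgebra.fg_iff_finiteType R).1 ⟨_, rfl⟩
  obtain ⟨M, hM⟩ := Ideal.exists_maximal R
  let := Ideal.Quotient.field M
  have : Module.Finite K (R ⧸ M) := finite_of_finite_type_of_isJacobsonRing K (R ⧸ M)
  have : Algebra.IsIntegral K (R ⧸ M) := Algebra.IsIntegral.of_finite K _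
  exact ⟨R, ((AlgEquiv.ofBijective (Algebra.ofId K (R ⧸ M))
    IsAlgClosed.algebraMap_bijective_of_isIntegral).symm.toAlgHom).comp (Ideal.Quotient.mkₐ K M),
    fun t ht => ⟨Algebra.subset_adjoin (by simp [ht]),
      Algebra.subset_adjoin (by simp; exact .inr ht)⟩⟩

variable {F : Type*} [Field F] [Algebra K F] (p : Pres K F)

theorem Pres.irreducible_mapXY : Irreducible (mapXY K L p.P) := by
  classical
  have hmon : (mapXY K L p.P).Monic := p.monic.map _
  have hne : mapXY K L p.P ≠ 1 := fun h => by
    have h1 := congrArg natDegree h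
    rw [mapXY, coe_mapRingHom, p.monic.natDegree_map, natDegree_one] at h1
    exact p.d_pos.ne' h1
  rw [hmon.irreducible_iff_natDegree]
  refine ⟨hne, fun f g hf hg hfg => ?_⟩
  by_contra hcon
  push Not at hcon
  obtain ⟨R, χ, hR⟩ := exists_algHom_of_finset (K := K) (coeffs2 f ∪ coeffs2 g)
  obtain ⟨fr, hfr⟩ := exists_lift (hR.mono Finset.subset_union_left)
  obtain ⟨gr, hgr⟩ := exists_lift (hR.mono Finset.subset_union_right)
  have hinj := inclXY_injective (R := R)
  have hfrm : fr.Monic := Polynomial.monic_of_injective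
    (Polynomial.map_injective _ Subtype.val_injective) (by
      have := hfr.symm ▸ hf; exact this)
  have hgrm : gr.Monic := Polynomial.monic_of_injective
    (Polynomial.map_injective _ Subtype.val_injective) (by
      have := hgr.symm ▸ hg; exact this)
  have hid : fr * gr = baseXY R p.P := hinj (by rw [map_mul, hfr, hgr, hfg, inclXY_baseXY])
  have hid' := congrArg (specXY χ) hid
  rw [map_mul, specXY_baseXY] at hid'
  have h0 := congrArg p.ev hid'
  rw [map_mul, p.root, mul_eq_zero] at h0
  have hdf : (specXY χ fr).natDegree = f.natDegree := by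
    rw [specXY, coe_mapRingHom, hfrm.natDegree_map, ← hfr, inclXY, coe_mapRingHom,
      hfrm.natDegree_map]
  have hdg : (specXY χ gr).natDegree = g.natDegree := by
    rw [specXY, coe_mapRingHom, hgrm.natDegree_map, ← hgr, inclXY, coe_mapRingHom,
      hgrm.natDegree_map]
  have hfm : (specXY χ fr).Monic := hfrm.map _
  have hgm : (specXY χ gr).Monic := hgrm.map _
  have hd : p.d = f.natDegree + g.natDegree := by
    rw [← hdf, ← hdg, ← hfm.natDegree_mul hgm, hid']
  rcases h0 with h0 | h0
  · exact hfm.ne_zero (p.minimal (by omega) h0)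
  · exact hgm.ne_zero (p.minimal (by omega) h0)

end fields

section hom

variable {K F L M : Type*} [Field K] [Field F] [Algebra K F] [Field L] [Field M] [Algebra K L]
  [Algebra L M] (p : Pres K F) {xC yC : M} (hx : Transcendental L xC)
  (hroot : evXY xC yC (mapXY K L p.P) = 0)

include hx hroot

theorem exists_hom :
    ∃ j : F →+* M, j p.x = xC ∧ j p.y = yC ∧
      ∀ c : K, j (algebraMap K F c) = algebraMap L M (algebraMap K L c) := by
  classical
  set ψ : Polynomial (Polynomial K) →+* M := (evXY xC yC).comp (mapXY K L) with hψ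
  have hC : ∀ h : Polynomial K, h ≠ 0 → ψ (C h) ≠ 0 := fun h hh => by
    simp only [hψ, RingHom.comp_apply, mapXY, coe_mapRingHom, map_C, evXY_C]
    exact aeval_ne_zero hx ((Polynomial.map_ne_zero_iff (algebraMap K L).injective).2 hh)
  have hker : ∀ G, p.ev G = 0 → ψ G = 0 := fun G h => by
    obtain ⟨Q, rfl⟩ := p.dvd_iff.1 h
    rw [map_mul]
    simp [hψ, hroot]
  choose G h hh hdeg e using p.gen
  set j : F → M := fun g => ψ (G g) / ψ (C (h g)) with hj
  have heq : ∀ g G' h', h' ≠ 0 → g * aeval p.x h' = p.ev G' → j g = ψ G' / ψ (C h') := by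
    intro g G' h' hh' e'
    simp only [hj]
    rw [div_eq_div_iff (hC _ (hh g)) (hC _ hh'), ← map_mul, ← map_mul, ← sub_eq_zero, ← map_sub]
    apply hker
    rw [map_sub, map_mul, map_mul, ← e g, ← e']
    simp only [evXY_C]
    ring
  have hint : ∀ G', j (p.ev G') = ψ G' := fun G' => by
    rw [heq _ G' 1 one_ne_zero (by simp), map_one, map_one, div_one]
  refine ⟨{ toFun := j, map_one' := ?_, map_mul' := fun a b => ?_, map_zero' := ?_,
            map_add' := fun a b => ?_ }, ?_, ?_, fun c => ?_⟩
  · simpa using hint 1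
  · rw [heq (a * b) (G a * G b) (h a * h b) (mul_ne_zero (hh a) (hh b))
      (by rw [map_mul, map_mul, ← e, ← e]; ring)]
    simp only [hj, C_mul, map_mul]
    rw [mul_div_mul_comm]
  · simpa using hint 0
  · rw [heq (a + b) (G a * C (h b) + G b * C (h a)) (h a * h b) (mul_ne_zero (hh a) (hh b))
      (by simp only [map_add, map_mul, ← e, evXY_C]; ring)]
    simp only [hj, C_mul, map_mul, map_add]
    rw [div_add_div _ _ (hC _ (hh a)) (hC _ (hh b))]
    ring
  · show j p.x = xC
    have := hint (C X)
    simpa [hψ, mapXY] using this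
  · show j p.y = yC
    have := hint X
    simpa [hψ, mapXY] using this
  · show j (algebraMap K F c) = _
    have := hint (C (C c))
    simpa [hψ, mapXY] using this

end hom

theorem adjoin_pair_eq_top {K F : Type*} [Field K] [Field F] [Algebra K F] (p : Pres K F)
    (A : IntermediateField K F) (hx : p.x ∈ A) (hy : p.y ∈ A) : A = ⊤ := by
  rw [eq_top_iff]
  intro g _
  obtain ⟨G, h, hh, -, e⟩ := p.gen g
  have hq : ∀ q : Polynomial K, aeval p.x q ∈ A := fun q =>
    adjoin_le_iff.2 (Set.singleton_subset_iff.2 hx) (aeval_mem_adjoin p.x q)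
  have hG : p.ev G ∈ A := by
    rw [Pres.ev, evXY, coe_eval₂RingHom, eval₂_eq_sum]
    exact sum_mem fun j _ => mul_mem (hq _) (pow_mem hy j)
  have := div_mem hG (hq h)
  rwa [← e, mul_div_cancel_right₀ _ (aeval_ne_zero p.transc hh)] at this

theorem isFunctionField1_of_top {K F : Type*} [Field K] [Field F] [Algebra K F] {x y : F}
    (hx : Transcendental K x) (hy : IsIntegral (adjoin K ({x} : Set F)) y)
    (htop : adjoin (adjoin K ({x} : Set F)) ({y} : Set F) = ⊤) :
    Fermat.Agent.Curve.IsFunctionField1 K F := by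
  refine .of_finite_adjoin hx ?_
  have := adjoin.finiteDimensional hy
  rw [htop] at this
  exact Module.Finite.equiv (topEquiv (F := adjoin K ({x} : Set F)) (E := F)).toLinearEquiv

theorem exists_model {L : Type} [Field L] (P' : Polynomial (Polynomial L)) (hmon : P'.Monic)
    (hirr : Irreducible P') :
    ∃ (M : Type) (_ : Field M) (_ : Algebra L M) (xC yC : M), Transcendental L xC ∧
      evXY xC yC P' = 0 ∧ adjoin (adjoin L ({xC} : Set M)) ({yC} : Set M) = ⊤ := by
  let E := FractionRing (Polynomial L)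
  let Q : Polynomial E := P'.map (algebraMap (Polynomial L) E)
  have : Fact (Irreducible Q) := ⟨hmon.irreducible_iff_irreducible_map_fraction_map.1 hirr⟩
  let φ : Polynomial L →ₐ[L] AdjoinRoot Q := IsScalarTower.toAlgHom L (Polynomial L) (AdjoinRoot Q)
  have haev : aeval (φ X) = φ := Polynomial.algHom_ext (aeval_X _)
  have hφ : ∀ q, φ q = algebraMap E (AdjoinRoot Q) (algebraMap (Polynomial L) E q) :=
    fun q => IsScalarTower.algebraMap_apply (Polynomial L) E (AdjoinRoot Q) q
  have hev : ∀ G : Polynomial (Polynomial L),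
      evXY (φ X) (AdjoinRoot.root Q) G = AdjoinRoot.mk Q (G.map (algebraMap (Polynomial L) E)) := by
    intro G
    rw [← AdjoinRoot.aeval_eq, aeval_def, eval₂_map, evXY, coe_eval₂RingHom, haev]
    congr 1
  refine ⟨AdjoinRoot Q, inferInstance, inferInstance, φ X, AdjoinRoot.root Q,
    fun ⟨q, hq, h⟩ => hq ?_, by rw [hev]; exact AdjoinRoot.mk_self, ?_⟩
  · rw [haev, hφ] at h
    exact IsFractionRing.injective (Polynomial L) E
      ((algebraMap E (AdjoinRoot Q)).injective (h.trans (by simp)))
  · rw [eq_top_iff]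
    intro z _
    set A := adjoin (adjoin L ({φ X} : Set (AdjoinRoot Q))) ({AdjoinRoot.root Q} : Set (AdjoinRoot Q))
    have hq : ∀ q, φ q ∈ A := fun q =>
      DFunLike.congr_fun haev q ▸ A.algebraMap_mem ⟨_, aeval_mem_adjoin (φ X) q⟩
    have hE : ∀ c : E, algebraMap E (AdjoinRoot Q) c ∈ A := fun c => by
      obtain ⟨a, b, -, rfl⟩ := IsFractionRing.div_surjective (A := Polynomial L) c
      rw [map_div₀, ← hφ, ← hφ]
      exact div_mem (hq a) (hq b)
    induction z using AdjoinRoot.induction_on with
    | ih q =>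
      rw [← AdjoinRoot.aeval_eq, aeval_def, eval₂_eq_sum]
      exact sum_mem fun i _ => mul_mem (hE _) (pow_mem (mem_adjoin_simple_self _ _) i)

/-- The count over a field of definition that embeds into `ℂ`. -/
theorem natCard_torsion_of_embedding
    (hC : ∀ (M : Type) [Field M] [Algebra ℂ M] [Fermat.Agent.Curve.IsFunctionField1 ℂ M] (n : ℕ),
      n ≠ 0 → Nat.card (Pic0.torsion ℂ M n) = n ^ (2 * genusFF ℂ M))
    (K0 F0 : Type*) [Field K0] [Field F0] [Algebra K0 F0] [IsAlgClosed K0] [CharZero K0]
    [Fermat.Agent.Curve.IsFunctionField1 K0 F0] [Algebra K0 ℂ] (p0 : Pres K0 F0)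
    (n : ℕ) (hn : n ≠ 0) :
    Nat.card (Pic0.torsion K0 F0 n) = n ^ (2 * genusFF K0 F0) := by
  have hmon : (mapXY K0 ℂ p0.P).Monic := p0.monic.map _
  obtain ⟨M, hMf, hMa, xC, yC, hxCt, hrootC, htopC⟩ :=
    exists_model (mapXY K0 ℂ p0.P) hmon p0.irreducible_mapXY
  obtain ⟨j, hjx, hjy, hjc⟩ := exists_hom p0 hxCt hrootC
  let : Algebra F0 M := j.toAlgebra
  let : Algebra K0 M := ((algebraMap ℂ M).comp (algebraMap K0 ℂ)).toAlgebra
  have : IsScalarTower K0 ℂ M := IsScalarTower.of_algebraMap_eq fun _ => rfl
  have : IsScalarTower K0 F0 M := IsScalarTower.of_algebraMap_eq fun c => (hjc c).symm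
  have hyCi : IsIntegral (adjoin ℂ ({xC} : Set M)) yC :=
    ⟨(mapXY K0 ℂ p0.P).map (toSimple xC), hmon.map _, by
      rw [← aeval_def, aeval_map_toSimple, hrootC]⟩
  have : Fermat.Agent.Curve.IsFunctionField1 ℂ M := isFunctionField1_of_top hxCt hyCi htopC
  have hext' : IsConstExt K0 F0 ℂ M := ⟨by
    rw [eq_top_iff]
    intro z _
    have hle : adjoin ℂ ({xC} : Set M) ≤ adjoin ℂ (Set.range (algebraMap F0 M)) :=
      adjoin.mono _ _ _ (Set.singleton_subset_iff.2 ⟨p0.x, hjx⟩)
    have hy' : adjoin (adjoin ℂ ({xC} : Set M)) ({yC} : Set M) ≤ extendScalars hle := by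
      rw [adjoin_le_iff, Set.singleton_subset_iff]
      exact (IntermediateField.mem_extendScalars hle).2
        (IntermediateField.subset_adjoin ℂ (Set.range (algebraMap F0 M)) ⟨p0.y, hjy⟩)
    exact (IntermediateField.mem_extendScalars hle).1 (hy' (htopC ▸ IntermediateField.mem_top))⟩
  rw [← natCard_torsion_baseChange K0 F0 ℂ M n, ← genusFF_eq K0 F0 ℂ M]
  exact hC M n hn

/-- **Reduction to `ℂ`**: the torsion count over `ℂ` implies it over every algebraically closed
field of characteristic zero. -/
theorem natCard_torsion_of_complex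
    (hC : ∀ (M : Type) [Field M] [Algebra ℂ M] [Fermat.Agent.Curve.IsFunctionField1 ℂ M] (n : ℕ),
      n ≠ 0 → Nat.card (Pic0.torsion ℂ M n) = n ^ (2 * genusFF ℂ M))
    (K F : Type*) [Field K] [Field F] [Algebra K F] [IsAlgClosed K] [CharZero K]
    [Fermat.Agent.Curve.IsFunctionField1 K F] (n : ℕ) (hn : n ≠ 0) :
    Nat.card (Pic0.torsion K F n) = n ^ (2 * genusFF K F) := by
  classical
  obtain ⟨x, hx⟩ := exists_transcendental (K := K) (F := F)
  have := finite_over_adjoin hx
  obtain ⟨p, -⟩ := exists_pres hx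
  -- a countable algebraically closed field of definition
  set k := adjoin ℚ ((coeffs2 p.P : Finset K) : Set K) with hk
  have hkc : Countable k := by
    rw [← Cardinal.mk_le_aleph0_iff, ← Cardinal.lift_le_aleph0.{_, 0}]
    refine (IntermediateField.lift_cardinalMk_adjoin_le ℚ (E := K) _).trans ?_
    simp
  let K0 := algebraicClosure k K
  have hK0c : Countable K0 := by
    have h : {z : K | IsAlgebraic k z}.Countable := Algebraic.countable k K
    have : (K0 : Set K) = {z : K | IsAlgebraic k z} := Set.ext fun z => mem_algebraicClosure_iff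
    exact (this ▸ h).to_subtype
  have : IsAlgClosed K0 := (algebraicClosure.isAlgClosure k K).1
  have : CharZero K0 := charZero_of_injective_algebraMap (algebraMap k K0).injective
  let F0 := adjoin K0 ({p.x, p.y} : Set F)
  obtain ⟨P0, hP0⟩ : ∃ P0, mapXY K0 K P0 = p.P := by
    refine (Polynomial.mem_lifts _).1 ((Polynomial.lifts_iff_coeff_lifts _).2 fun j => ?_)
    obtain ⟨q, hq⟩ : ∃ q : Polynomial K0, q.map (algebraMap K0 K) = p.P.coeff j := by
      refine (Polynomial.mem_lifts _).1 ((Polynomial.lifts_iff_coeff_lifts _).2 fun i => ?_)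
      by_cases h : (p.P.coeff j).coeff i = 0
      · exact ⟨0, by simp [h]⟩
      · have : (p.P.coeff j).coeff i ∈ k :=
          IntermediateField.subset_adjoin ℚ _ (coeff_mem_coeffs2 h)
        refine ⟨⟨_, mem_algebraicClosure_iff.2
          (isAlgebraic_algebraMap (⟨_, this⟩ : k))⟩, rfl⟩
    exact ⟨q, hq⟩
  set x0 : F0 := ⟨p.x, IntermediateField.subset_adjoin _ _ (by simp)⟩
  set y0 : F0 := ⟨p.y, IntermediateField.subset_adjoin _ _ (by simp)⟩
  have hroot0 : evXY x0 y0 P0 = 0 := by
    apply (algebraMap F0 F).injective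
    rw [← evXY_mapXY (L := K) (F' := F), hP0, map_zero]
    exact p.root
  have hmon0 : P0.Monic := Polynomial.monic_of_injective
    (Polynomial.map_injective _ (algebraMap K0 K).injective) (by
      show (mapXY K0 K P0).Monic
      rw [hP0]; exact p.monic)
  have hx0 : Transcendental K0 x0 := by
    rw [← transcendental_algebraMap_iff (A := F) (algebraMap F0 F).injective]
    exact p.transc.restrictScalars (algebraMap K0 K).injective
  have hy0 : IsIntegral (adjoin K0 ({x0} : Set F0)) y0 :=
    ⟨P0.map (toSimple x0), hmon0.map _, by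
      rw [← aeval_def, aeval_map_toSimple, hroot0]⟩
  have htop0 : adjoin (adjoin K0 ({x0} : Set F0)) ({y0} : Set F0) = ⊤ := by
    rw [← IntermediateField.restrictScalars_eq_top_iff (K := K0)]
    apply IntermediateField.lift_injective
    rw [IntermediateField.lift_top]
    refine le_antisymm (IntermediateField.lift_le _) (adjoin_le_iff.2 ?_)
    intro z hz
    rcases hz with rfl | rfl
    · exact (IntermediateField.mem_lift x0).2
        ((adjoin (adjoin K0 ({x0} : Set F0)) ({y0} : Set F0)).algebraMap_mem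
          ⟨x0, mem_adjoin_simple_self K0 x0⟩)
    · exact (IntermediateField.mem_lift y0).2
        (mem_adjoin_simple_self (adjoin K0 ({x0} : Set F0)) y0)
  have : Fermat.Agent.Curve.IsFunctionField1 K0 F0 := isFunctionField1_of_top hx0 hy0 htop0
  have hext : IsConstExt K0 F0 K F := ⟨adjoin_pair_eq_top p _
    (IntermediateField.subset_adjoin _ _ ⟨x0, rfl⟩) (IntermediateField.subset_adjoin _ _ ⟨y0, rfl⟩)⟩
  have hdeg0 : P0.natDegree = p.d := by
    rw [Pres.d, ← hP0, mapXY, coe_mapRingHom, hmon0.natDegree_map]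
  let p0 : Pres K0 F0 :=
    { x := x0, y := y0, P := P0, monic := hmon0, transc := hx0, root := hroot0, adjoin_y := htop0
      deg_eq := by
        have h1 := finrank_adjoin_map (K := K0) (F := F0) (L := K) (F' := F) hx0
        change Module.finrank (adjoin K ({p.x} : Set F)) F = _ at h1
        rw [← h1, ← p.deg_eq, hdeg0] }
  obtain ⟨φ⟩ := exists_embedding_complex K0
  let := φ.toAlgebra
  rw [natCard_torsion_baseChange K0 F0 K F n, genusFF_eq K0 F0 K F]
  exact natCard_torsion_of_embedding hC K0 F0 p0 n hn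

end Fermat.Agent.Torsion.Descent
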