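import Fermat.Agent.Torsion.Descent.Pres
import Mathlib.RingTheory.Valuation.LocalSubring

/-!
# Places over a good value of `x`
-/

set_option autoImplicit false

noncomputable section

open AlgebraicCurve IntermediateField Polynomial

namespace Fermat.Agent.Torsion.Descent

namespace Pres

variable {K F : Type*} [Field K] [Field F] [Algebra K F] (p : Pres K F)

/-- Value of a polynomial at `(a, b)`. -/
def val (a b : K) : Polynomial (Polynomial K) →+* K := eval₂RingHom (evalRingHom a) b

theorem val_eq (a b : K) (G : Polynomial (Polynomial K)) :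
    val a b G = (G.map (evalRingHom a)).eval b := by
  rw [val, coe_eval₂RingHom, eval_map]

@[simp] theorem val_C (a b : K) (q : Polynomial K) : val a b (C q) = q.eval a := by simp [val]

@[simp] theorem val_X (a b : K) : val a b (X : Polynomial (Polynomial K)) = b := by simp [val]

theorem ev_C_C (c : K) : p.ev (C (C c)) = algebraMap K F c := by simp

theorem val_C_C (a b c : K) : val a b (C (C c)) = c := by simp

theorem ordGE_ev {v : Place K F} (hx : OrdGE v 0 p.x) (hy : OrdGE v 0 p.y)
    (G : Polynomial (Polynomial K)) : OrdGE v 0 (p.ev G) := by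
  simp only [← mem_iff_ordGE] at hx hy ⊢
  have hq : ∀ q : Polynomial K, aeval p.x q ∈ v.toValuationSubring := fun q => by
    induction q using Polynomial.induction_on' with
    | add a b ha hb => rw [map_add]; exact add_mem ha hb
    | monomial n c =>
      rw [aeval_monomial]
      exact mul_mem (v.algebraMap_mem' c) (pow_mem hx n)
  induction G using Polynomial.induction_on' with
  | add a b ha hb => rw [map_add]; exact add_mem ha hb
  | monomial n c =>
    rw [Pres.ev, ← C_mul_X_pow_eq_monomial, map_mul, map_pow, evXY_C, evXY_X]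
    exact mul_mem (hq c) (pow_mem hy n)

theorem ordGE_x_of_vanAt {v : Place K F} {a : K} {f : F} (h : VanAt v (f - algebraMap K F a)) :
    OrdGE v 0 f := by
  have := ((vanAt_iff_ordGE.1 h).mono (by omega : (0 : ℤ) ≤ 1)).add (ordGE_algebraMap (v := v) a)
  rwa [sub_add_cancel] at this

variable {p} in
theorem vanAt_ev_sub {v : Place K F} {a b : K} (hx : VanAt v (p.x - algebraMap K F a))
    (hy : VanAt v (p.y - algebraMap K F b)) (G : Polynomial (Polynomial K)) :
    VanAt v (p.ev G - algebraMap K F (val a b G)) := by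
  rw [vanAt_iff_ordGE] at hx hy ⊢
  have hx0 : OrdGE v 0 p.x := ordGE_x_of_vanAt (vanAt_iff_ordGE.2 hx)
  have hy0 : OrdGE v 0 p.y := ordGE_x_of_vanAt (vanAt_iff_ordGE.2 hy)
  have hmul : ∀ G H : Polynomial (Polynomial K),
      OrdGE v 1 (p.ev G - algebraMap K F (val a b G)) →
      OrdGE v 1 (p.ev H - algebraMap K F (val a b H)) →
      OrdGE v 1 (p.ev (G * H) - algebraMap K F (val a b (G * H))) := by
    intro G H hG hH
    have h1 := hG.mul (p.ordGE_ev hx0 hy0 H)
    have h2 := (ordGE_algebraMap (v := v) (val a b G)).mul hH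
    have := (h1.mono (by omega : (1 : ℤ) ≤ 1 + 0)).add (h2.mono (by omega : (1 : ℤ) ≤ 0 + 1))
    convert this using 1
    simp only [map_mul]
    ring
  have hC : ∀ q : Polynomial K, OrdGE v 1 (p.ev (C q) - algebraMap K F (val a b (C q))) := by
    intro q
    induction q using Polynomial.induction_on with
    | C c => simpa using OrdGE.zero
    | add f g hf hg =>
      have := hf.add hg
      convert this using 1
      simp only [map_add]
      ring
    | monomial n c h =>
      rw [pow_succ, ← mul_assoc, C_mul]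
      exact hmul _ _ h (by simpa using hx)
  induction G using Polynomial.induction_on with
  | C q => exact hC q
  | add f g hf hg =>
    have := hf.add hg
    convert this using 1
    simp only [map_add]
    ring
  | monomial n c h =>
    rw [pow_succ, ← mul_assoc]
    exact hmul _ _ h (by simpa using hy)

section curve

variable [IsAlgClosed K] [CharZero K] [Fermat.Agent.Curve.IsFunctionField1 K F]

theorem x_sub_ne_zero (a : K) : p.x - algebraMap K F a ≠ 0 := fun h =>
  p.transc (sub_eq_zero.1 h ▸ isAlgebraic_algebraMap a)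

theorem exists_point {a b : K} (h : val a b p.P = 0) :
    ∃ v : Place K F, VanAt v (p.x - algebraMap K F a) ∧ VanAt v (p.y - algebraMap K F b) := by
  set A : Subring F := p.ev.range
  set I : Ideal A := (RingHom.ker (val a b)).map p.ev.rangeRestrict with hI
  have hI' : I ≠ ⊤ := by
    rw [Ne, Ideal.eq_top_iff_one]
    intro h1
    obtain ⟨G, hG, hG1⟩ :=
      (Ideal.mem_map_iff_of_surjective _ p.ev.rangeRestrict_surjective).1 h1
    have : p.ev (G - 1) = 0 := by
      rw [map_sub, map_one, sub_eq_zero]
      exact congrArg Subtype.val hG1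
    obtain ⟨Q, hQ⟩ := p.dvd_iff.1 this
    have := congrArg (val a b) hQ
    rw [map_sub, map_mul, h, zero_mul, map_one, RingHom.mem_ker.1 hG] at this
    simp at this
  obtain ⟨B, hAB, hIB⟩ := Ideal.image_subset_nonunits_valuationSubring I hI'
  have hnon : ∀ G, val a b G = 0 → p.ev G ∈ B.nonunits := fun G hG =>
    hIB ⟨p.ev.rangeRestrict G, Ideal.mem_map_of_mem _ (RingHom.mem_ker.2 hG), rfl⟩
  have hK : ∀ c : K, algebraMap K F c ∈ B := fun c => hAB ⟨C (C c), p.ev_C_C c⟩
  have hvan : ∀ f : F, f ∈ B.nonunits → f = 0 ∨ f⁻¹ ∉ B := fun f hf => by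
    rw [← inv_inv f, ValuationSubring.inv_mem_nonunits_iff] at hf
    simpa using hf
  have hxa := hnon (C (X - C a)) (by simp)
  have hxa' : p.ev (C (X - C a)) = p.x - algebraMap K F a := by simp
  have hne : B ≠ ⊤ := by
    intro htop
    rcases hvan _ hxa with h0 | h0
    · exact p.x_sub_ne_zero a (hxa' ▸ h0)
    · exact h0 (htop ▸ ValuationSubring.mem_top _)
  obtain ⟨v, rfl⟩ := exists_place_of_valuationSubring B hK hne
  have hv : ∀ f : F, f ∈ v.toValuationSubring.nonunits → VanAt v f := fun f hf => by
    rcases hvan f hf with rfl | h0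
    · exact vanAt_iff.2 (.inl rfl)
    · rw [mem_iff_ordGE, ordGE_iff, v.ord_inv] at h0
      push Not at h0
      exact vanAt_iff.2 (.inr (by omega))
  refine ⟨v, hxa' ▸ hv _ hxa, ?_⟩
  have := hv _ (hnon (X - C (C b)) (by simp))
  simpa using this

theorem sum_zeros (a : K) : ∃ S : Finset (Place K F),
    (∀ v, v ∈ S ↔ VanAt v (p.x - algebraMap K F a)) ∧
      ∑ v ∈ S, v.ord (p.x - algebraMap K F a) = p.d := by
  set t := (p.x - algebraMap K F a)⁻¹ with ht
  have hadj : adjoin K ({t} : Set F) = adjoin K ({p.x} : Set F) := by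
    refine le_antisymm ?_ ?_ <;> rw [adjoin_le_iff, Set.singleton_subset_iff]
    · exact inv_mem (sub_mem (mem_adjoin_simple_self K p.x) (IntermediateField.algebraMap_mem _ a))
    · have := add_mem (inv_mem (mem_adjoin_simple_self K t))
        (IntermediateField.algebraMap_mem (adjoin K ({t} : Set F)) a)
      rwa [ht, inv_inv, sub_add_cancel] at this
  have htr : Transcendental K t := by
    intro halg
    have : IsAlgebraic K (p.x - algebraMap K F a) := by simpa [ht] using halg.inv
    exact p.transc (by simpa using this.add (isAlgebraic_algebraMap a))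
  obtain ⟨S, hS, hsum⟩ := sum_poles_eq htr
  refine ⟨S, fun v => ?_, ?_⟩
  · rw [hS, ht, v.ord_inv, vanAt_iff, or_iff_right (p.x_sub_ne_zero a)]
    omega
  · rw [congrArg (fun k : IntermediateField K F => Module.finrank k F) hadj, ← p.deg_eq] at hsum
    simpa [ht, Place.ord_inv] using hsum

/-- If the fibre over `a` has `d` distinct `y`-values, it is unramified and consists of the
corresponding points. -/
theorem fibre {a : K} {B : Finset K} (hB : B.card = p.d) (hroot : ∀ b ∈ B, val a b p.P = 0)
    {v : Place K F} (hv : VanAt v (p.x - algebraMap K F a)) :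
    v.ord (p.x - algebraMap K F a) = 1 ∧ (∃ b ∈ B, VanAt v (p.y - algebraMap K F b)) ∧
      ∀ v' : Place K F, ∀ b ∈ B, VanAt v (p.y - algebraMap K F b) →
        VanAt v' (p.x - algebraMap K F a) → VanAt v' (p.y - algebraMap K F b) → v' = v := by
  classical
  obtain ⟨S, hS, hsum⟩ := p.sum_zeros a
  choose pt hptx hpty using fun b : B => p.exists_point (hroot b.1 b.2)
  have hinj : Function.Injective pt := fun b c h => by
    apply Subtype.ext
    have h2 := hpty c
    rw [← h] at h2
    exact value_unique (hpty b) h2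
  have hord : ∀ u ∈ S, 1 ≤ u.ord (p.x - algebraMap K F a) := fun u hu => by
    have := vanAt_iff.1 ((hS u).1 hu)
    simp [p.x_sub_ne_zero a] at this
    omega
  have hsub : Finset.univ.image pt ⊆ S := fun u hu => by
    obtain ⟨b, _, rfl⟩ := Finset.mem_image.1 hu
    exact (hS _).2 (hptx b)
  have hcard : (Finset.univ.image pt).card = p.d := by
    rw [Finset.card_image_of_injective _ hinj, Finset.card_univ, Fintype.card_coe, hB]
  have hle : (S.card : ℤ) ≤ p.d := by
    rw [← hsum]
    calc (S.card : ℤ) = ∑ _u ∈ S, (1 : ℤ) := by simp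
      _ ≤ _ := Finset.sum_le_sum hord
  have hSeq : Finset.univ.image pt = S :=
    Finset.eq_of_subset_of_card_le hsub (by rw [hcard]; exact_mod_cast hle)
  have hone : ∀ u ∈ S, u.ord (p.x - algebraMap K F a) = 1 := by
    intro u hu
    have h1 : ∑ w ∈ S, (w.ord (p.x - algebraMap K F a) - 1) = 0 := by
      rw [Finset.sum_sub_distrib, hsum, ← hSeq, Finset.sum_const, hcard]
      simp
    have := (Finset.sum_eq_zero_iff_of_nonneg fun w hw => by linarith [hord w hw]).1 h1 u hu
    linarith
  have hex : ∀ u : Place K F, VanAt u (p.x - algebraMap K F a) → ∃ b : B, pt b = u := fun u hu => by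
    have := (hS u).2 hu
    rw [← hSeq, Finset.mem_image] at this
    simpa using this
  refine ⟨hone v ((hS v).2 hv), ?_, ?_⟩
  · obtain ⟨b, rfl⟩ := hex v hv
    exact ⟨b.1, b.2, hpty b⟩
  · intro v' b _ hvb hv'x hv'b
    obtain ⟨c, rfl⟩ := hex v hv
    obtain ⟨c', rfl⟩ := hex v' hv'x
    congr 1
    exact Subtype.ext ((value_unique (hpty c') hv'b).trans (value_unique hvb (hpty c)))

end curve

variable {p} in
/-- Vanishing to order `k` at a simple point is expressed by a polynomial identity. -/
theorem exists_witness {v : Place K F} {a b : K}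
    (hx : VanAt v (p.x - algebraMap K F a)) (hy : VanAt v (p.y - algebraMap K F b))
    (h1 : v.ord (p.x - algebraMap K F a) = 1) (hroot : val a b p.P = 0)
    (hder : val a b p.P.derivative ≠ 0) (k : ℕ) (G : Polynomial (Polynomial K))
    (hG : OrdGE v k (p.ev G)) :
    ∃ u G' : Polynomial (Polynomial K), val a b u ≠ 0 ∧
      p.P ∣ u * G - C (X - C a) ^ k * G' := by
  set τ : Polynomial (Polynomial K) := C (X - C a) with hτ
  have hsplit : ∀ H : Polynomial (Polynomial K), val a b H = 0 →
      ∃ H1 H2, H = τ * H1 + (X - C (C b)) * H2 := by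
    intro H hH
    obtain ⟨H2, hH2⟩ : X - C (C b) ∣ H - C (H.eval (C b)) := X_sub_C_dvd_sub_C_eval
    obtain ⟨r, hr⟩ : X - C a ∣ H.eval (C b) - C ((H.eval (C b)).eval a) := X_sub_C_dvd_sub_C_eval
    have h0 : (H.eval (C b)).eval a = 0 := by
      rw [← hH, val, coe_eval₂RingHom]
      rw [show b = evalRingHom a (C b) by simp, eval₂_at_apply]
      simp
    rw [h0, map_zero, sub_zero] at hr
    refine ⟨C r, H2, ?_⟩
    rw [hτ, ← C_mul, ← hr]
    linear_combination hH2
  obtain ⟨P1, P2, hP⟩ := hsplit p.P hroot
  have hP2 : val a b P2 ≠ 0 := by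
    intro h0
    apply hder
    rw [hP, hτ]
    simp [h0]
  induction k generalizing G with
  | zero => exact ⟨1, G, by simp, by simp⟩
  | succ k ih =>
    have hG0 : val a b G = 0 := by
      by_contra hne
      apply not_vanAt_algebraMap (v := v) hne
      rw [vanAt_iff_ordGE]
      have := (hG.mono (by omega : (1 : ℤ) ≤ ((k + 1 : ℕ) : ℤ))).sub
        (vanAt_iff_ordGE.1 (vanAt_ev_sub hx hy G))
      simpa using this
    obtain ⟨G1, G2, hGd⟩ := hsplit G hG0
    set H := G1 * P2 - G2 * P1 with hH
    have hdvd : p.P ∣ P2 * G - τ * H := ⟨G2, by rw [hH, hGd, hP]; ring⟩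
    have hordH : OrdGE v k (p.ev H) := by
      have heq : p.ev P2 * p.ev G = (p.x - algebraMap K F a) * p.ev H := by
        have h' := p.dvd_iff.2 hdvd
        rw [map_sub, map_mul, map_mul, sub_eq_zero] at h'
        rw [h', hτ]
        simp
      have hne := p.transc
      have hxne : p.x - algebraMap K F a ≠ 0 := fun h => hne
        (sub_eq_zero.1 h ▸ isAlgebraic_algebraMap a)
      have hi : OrdGE v (-1) (p.x - algebraMap K F a)⁻¹ :=
        ordGE_iff.2 (.inr (by rw [v.ord_inv, h1]))
      have := hi.mul ((p.ordGE_ev (ordGE_x_of_vanAt hx) (ordGE_x_of_vanAt hy) P2).mul hG)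
      rw [heq, inv_mul_cancel_left₀ hxne] at this
      exact this.mono (by push_cast; omega)
    obtain ⟨u, G', hu, hdvd'⟩ := ih H hordH
    refine ⟨u * P2, G', by rw [map_mul]; exact mul_ne_zero hu hP2, ?_⟩
    have : u * P2 * G - τ ^ (k + 1) * G' = u * (P2 * G - τ * H) + τ * (u * H - τ ^ k * G') := by
      ring
    rw [this]
    exact dvd_add (dvd_mul_of_dvd_right hdvd _) (dvd_mul_of_dvd_right hdvd' _)

end Pres

end Fermat.Agent.Torsion.Descent
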