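import Fermat.Agent.Torsion.Descent.Setting
import Fermat.Agent.Torsion.Descent.Fibre
import Mathlib.LinearAlgebra.Basis.VectorSpace

/-!
# Generic places, and Riemann–Roch spaces under extension of constants
-/

set_option autoImplicit false

noncomputable section

open AlgebraicCurve IntermediateField Polynomial

namespace Fermat.Agent.Torsion.Descent

variable {K F L F' : Type*} [Field K] [Field F] [Algebra K F] [Field L] [Field F']
  [Algebra L F'] [Algebra K L] [Algebra K F'] [Algebra F F'] [IsScalarTower K L F']
  [IsScalarTower K F F']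
  [IsAlgClosed K] [CharZero K] [Fermat.Agent.Curve.IsFunctionField1 K F]
  [IsAlgClosed L] [CharZero L] [Fermat.Agent.Curve.IsFunctionField1 L F']
  [hext : IsConstExt K F L F']

local notation "ι" => algebraMap F F'

/-- Extension of scalars of polynomials in two variables. -/
def mapXY (K L : Type*) [Field K] [Field L] [Algebra K L] :
    Polynomial (Polynomial K) →+* Polynomial (Polynomial L) :=
  mapRingHom (mapRingHom (algebraMap K L))

omit hext [IsAlgClosed K] [CharZero K] [Fermat.Agent.Curve.IsFunctionField1 K F]
  [IsAlgClosed L] [CharZero L] [Fermat.Agent.Curve.IsFunctionField1 L F'] in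
theorem aeval_map_algMap (x : F) (q : Polynomial K) :
    aeval (ι x) (q.map (algebraMap K L)) = ι (aeval x q) := by
  rw [aeval_map_algebraMap, aeval_algebraMap_apply]

omit hext [IsAlgClosed K] [CharZero K] [Fermat.Agent.Curve.IsFunctionField1 K F]
  [IsAlgClosed L] [CharZero L] [Fermat.Agent.Curve.IsFunctionField1 L F'] in
theorem evXY_mapXY (x y : F) (G : Polynomial (Polynomial K)) :
    evXY (ι x) (ι y) (mapXY K L G) = ι (evXY x y G) := by
  induction G using Polynomial.induction_on' with
  | add a b ha hb => simp only [map_add, ha, hb]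
  | monomial n c =>
    rw [mapXY, coe_mapRingHom, map_monomial, ← C_mul_X_pow_eq_monomial, ← C_mul_X_pow_eq_monomial]
    simp only [map_mul, map_pow, evXY_C, evXY_X, coe_mapRingHom, aeval_map_algMap]

variable (L F') in
/-- A presentation of `F` gives one of `F'`. -/
def Pres.baseChange (p : Pres K F) : Pres L F' where
  x := ι p.x
  y := ι p.y
  P := mapXY K L p.P
  monic := p.monic.map _
  transc := transcendental_map p.transc
  root := by rw [evXY_mapXY, p.root, map_zero]
  adjoin_y := by
    set k' := adjoin L ({ι p.x} : Set F')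
    set A := adjoin k' ({ι p.y} : Set F')
    rw [eq_top_iff]
    intro z _
    have hk : (k' : Set F') ⊆ A := fun c hc => A.algebraMap_mem (⟨c, hc⟩ : k')
    have hA : (⊤ : IntermediateField L F') ≤ A.restrictScalars L := by
      rw [← IsConstExt.adjoin_range (K := K) (F := F) (L := L) (F' := F'), adjoin_le_iff]
      rintro _ ⟨g, rfl⟩
      obtain ⟨G, h, hh, -, e⟩ := p.gen g
      have hG : ι (p.ev G) ∈ A := by
        rw [← evXY_mapXY (L := L), evXY, coe_eval₂RingHom, eval₂_eq_sum]
        exact sum_mem fun j _ => mul_mem (hk (aeval_mem_adjoin _ _))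
          (pow_mem (mem_adjoin_simple_self k' (ι p.y)) j)
      have hd : ι (aeval p.x h) ∈ A := by
        rw [← aeval_map_algMap (L := L)]
        exact hk (aeval_mem_adjoin _ _)
      rw [← e, map_mul] at hG
      have := div_mem hG hd
      rwa [mul_div_cancel_right₀ _ (by simpa using aeval_ne_zero p.transc hh)] at this
    exact hA (mem_top (x := z))
  deg_eq := by
    rw [mapXY, coe_mapRingHom, p.monic.natDegree_map, finrank_adjoin_map p.transc, p.deg_eq]

@[simp] theorem Pres.baseChange_x (p : Pres K F) : (p.baseChange L F').x = ι p.x := rfl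
@[simp] theorem Pres.baseChange_y (p : Pres K F) : (p.baseChange L F').y = ι p.y := rfl
@[simp] theorem Pres.baseChange_P (p : Pres K F) : (p.baseChange L F').P = mapXY K L p.P := rfl

theorem Pres.baseChange_d (p : Pres K F) : (p.baseChange L F').d = p.d :=
  p.monic.natDegree_map _

theorem Pres.baseChange_ev (p : Pres K F) (G : Polynomial (Polynomial K)) :
    (p.baseChange L F').ev (mapXY K L G) = ι (p.ev G) := evXY_mapXY _ _ _

theorem x_value_of_extPlace {v : Place K F} {f : F} {a : L}
    (h : VanAt (extPlace v : Place L F') (ι f - algebraMap L F' a)) :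
    a ∈ Set.range (algebraMap K L) := by
  have hf : OrdGE v 0 f :=
    ordGE_extPlace.1 (Pres.ordGE_x_of_vanAt h)
  obtain ⟨c, hc⟩ := exists_value hf
  refine ⟨c, value_unique ?_ h⟩
  rw [vanAt_iff_ordGE] at hc ⊢
  have := (ordGE_extPlace (L := L) (F' := F')).2 hc
  rwa [map_sub, ← IsScalarTower.algebraMap_apply, IsScalarTower.algebraMap_apply K L F'] at this

theorem isGeneric_of_vanAt {w : Place L F'} {f : F} {a : L}
    (ha : a ∉ Set.range (algebraMap K L)) (h : VanAt w (ι f - algebraMap L F' a)) :
    ∀ g : F, w.ord (ι g) = 0 := by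
  rcases eq_extPlace_or_isGeneric (K := K) (F := F) w with ⟨v, rfl⟩ | hg
  · exact absurd (x_value_of_extPlace h) ha
  · exact hg

theorem exists_generic_value (p : Pres K F) {w : Place L F'}
    (hw : ∀ g : F, w.ord (ι g) = 0) :
    ∃ a : L, a ∉ Set.range (algebraMap K L) ∧ VanAt w (ι p.x - algebraMap L F' a) := by
  obtain ⟨a, ha⟩ := exists_value (v := w) (f := ι p.x) (ordGE_iff.2 (.inr (hw p.x).ge))
  refine ⟨a, ?_, ha⟩
  rintro ⟨c, rfl⟩
  rw [← IsScalarTower.algebraMap_apply, IsScalarTower.algebraMap_apply K F F', ← map_sub,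
    vanAt_iff, hw, map_eq_zero] at ha
  rcases ha with h | h
  · exact p.x_sub_ne_zero c h
  · omega

omit hext in
theorem Pres.separable_specialize (p : Pres K F) {a : L} (ha : a ∉ Set.range (algebraMap K L)) :
    ((mapXY K L p.P).map (evalRingHom a)).Separable := by
  have h : (mapXY K L p.P).map (evalRingHom a) =
      p.P.map (aeval a : Polynomial K →ₐ[K] L).toRingHom := by
    rw [mapXY, coe_mapRingHom, Polynomial.map_map]
    congr 1
    refine Polynomial.ringHom_ext (fun c => ?_) ?_ <;> simp
  rw [h]
  have hsep := p.separable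
  have hinjF : Function.Injective (aeval p.x : Polynomial K →ₐ[K] F).toRingHom :=
    (injective_iff_map_eq_zero _).2 fun q hq => by_contra fun hne => aeval_ne_zero p.transc hne hq
  have hinjL : Function.Injective (aeval a : Polynomial K →ₐ[K] L).toRingHom :=
    (injective_iff_map_eq_zero _).2 fun q hq => by_contra fun hne =>
      aeval_ne_zero (transcendental_of_notMem ha) hne hq
  have hF : (IsFractionRing.lift hinjF : FractionRing (Polynomial K) →+* F).comp
      (algebraMap (Polynomial K) (FractionRing (Polynomial K))) =
      (aeval p.x : Polynomial K →ₐ[K] F).toRingHom :=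
    RingHom.ext fun q => IsFractionRing.lift_algebraMap hinjF q
  have hL : (IsFractionRing.lift hinjL : FractionRing (Polynomial K) →+* L).comp
      (algebraMap (Polynomial K) (FractionRing (Polynomial K))) =
      (aeval a : Polynomial K →ₐ[K] L).toRingHom :=
    RingHom.ext fun q => IsFractionRing.lift_algebraMap hinjL q
  rw [← hF, ← Polynomial.map_map, separable_map] at hsep
  rw [← hL, ← Polynomial.map_map, separable_map]
  exact hsep

theorem exists_fibre_roots (p : Pres K F) {a : L} (ha : a ∉ Set.range (algebraMap K L)) :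
    ∃ B : Finset L, B.card = (p.baseChange L F').d ∧
      ∀ b ∈ B, Pres.val a b (p.baseChange L F').P = 0 ∧
        Pres.val a b (p.baseChange L F').P.derivative ≠ 0 := by
  classical
  set Q := (mapXY K L p.P).map (evalRingHom a) with hQ
  have hsep : Q.Separable := p.separable_specialize ha
  have hdeg : Q.natDegree = (p.baseChange L F').d := by
    rw [hQ, mapXY, coe_mapRingHom, (p.monic.map _).natDegree_map, p.monic.natDegree_map]
    exact (p.baseChange_d (L := L) (F' := F')).symm
  refine ⟨Q.roots.toFinset, ?_, fun b hb => ?_⟩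
  · rw [Multiset.toFinset_card_of_nodup (nodup_roots hsep), ← hdeg,
      ← (IsAlgClosed.splits Q).natDegree_eq_card_roots]
  · rw [Multiset.mem_toFinset, mem_roots hsep.ne_zero] at hb
    rw [Pres.val_eq, Pres.val_eq, ← derivative_map]
    refine ⟨hb, ?_⟩
    have := hsep.eval₂_derivative_ne_zero (RingHom.id L) (x := b) (by simpa using hb)
    simpa [hQ] using this

theorem exists_generic_form (p : Pres K F) (g : F')
    (hg : ∀ w : Place L F', (∀ f : F, w.ord (ι f) = 0) → OrdGE w 0 g) :
    ∃ (G : Polynomial (Polynomial L)) (q : Polynomial K), q ≠ 0 ∧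
      g * ι (aeval p.x q) = (p.baseChange L F').ev G := by
  set p' := p.baseChange L F'
  obtain ⟨G, h, hh, hGd, e⟩ := p'.gen g
  induction hn : h.natDegree using Nat.strong_induction_on generalizing h g G with
  | _ n ih =>
    subst hn
    by_cases hdeg : h.natDegree = 0
    · obtain ⟨c, rfl⟩ := natDegree_eq_zero.1 hdeg
      have hc : c ≠ 0 := fun h => hh (by simp [h])
      refine ⟨C (C c⁻¹) * G, 1, one_ne_zero, ?_⟩
      rw [map_mul, ← e, p'.ev_C_C]
      simp [hc, mul_comm g]
    · obtain ⟨a, ha⟩ := IsAlgClosed.exists_root h (fun h0 => hdeg (natDegree_eq_zero_iff_degree_le_zero.2 h0.le))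
      obtain ⟨h1, rfl⟩ := dvd_iff_isRoot.2 ha
      have hh1 : h1 ≠ 0 := right_ne_zero_of_mul hh
      have hlt : h1.natDegree < ((X - C a) * h1).natDegree := by
        rw [natDegree_mul (X_sub_C_ne_zero a) hh1, natDegree_X_sub_C]; omega
      by_cases hak : a ∈ Set.range (algebraMap K L)
      · obtain ⟨c, rfl⟩ := hak
        have e' : g * ι (p.x - algebraMap K F c) * aeval p'.x h1 = p'.ev G := by
          rw [← e, map_mul, map_sub, map_sub, aeval_X, aeval_C,
            ← IsScalarTower.algebraMap_apply, ← IsScalarTower.algebraMap_apply K L F']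
          simp only [p', Pres.baseChange_x]
          ring
        obtain ⟨G', q, hq, e''⟩ := ih _ hlt (g * ι (p.x - algebraMap K F c))
          (fun w hw => by simpa using ((hg w hw).mul
            (ordGE_iff.2 (.inr (hw (p.x - algebraMap K F c)).ge) : OrdGE w 0 (ι (p.x - algebraMap K F c))))) G h1 hh1 hGd e' rfl
        refine ⟨G', (X - C c) * q, mul_ne_zero (X_sub_C_ne_zero c) hq, ?_⟩
        simp only [← e'', map_mul, map_sub, aeval_X, aeval_C]
        ring
      · obtain ⟨B, hB, hBr⟩ := exists_fibre_roots (F' := F') p hak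
        have hroots : ∀ b ∈ B, (G.map (evalRingHom a)).eval b = 0 := by
          intro b hb
          obtain ⟨w, hwx, hwy⟩ := p'.exists_point (hBr b hb).1
          have hgen := isGeneric_of_vanAt (K := K) (F := F) hak hwx
          have h2 : VanAt w (p'.ev G) := by
            rw [vanAt_iff_ordGE] at hwx ⊢
            rw [← e, map_mul]
            have h3 : OrdGE w 0 (aeval p'.x h1) := by
              have := p'.ordGE_ev (Pres.ordGE_x_of_vanAt (vanAt_iff_ordGE.2 hwx))
                (Pres.ordGE_x_of_vanAt hwy) (C h1)
              simpa using this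
            have := (hg w hgen).mul (hwx.mul h3)
            simpa using this
          rw [← Pres.val_eq]
          by_contra hne
          apply not_vanAt_algebraMap (v := w) hne
          rw [vanAt_iff_ordGE] at h2 ⊢
          have := h2.sub (vanAt_iff_ordGE.1 (Pres.vanAt_ev_sub hwx hwy G))
          simpa using this
        have hzero : G.map (evalRingHom a) = 0 := by
          refine eq_zero_of_natDegree_lt_card_of_eval_eq_zero' _ B hroots ?_
          rw [hB]
          exact natDegree_map_le.trans_lt hGd
        have hdvd : C (X - C a) ∣ G := by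
          rw [C_dvd_iff_dvd_coeff]
          intro i
          rw [dvd_iff_isRoot]
          have := congrArg (fun q => q.coeff i) hzero
          simpa [coeff_map] using this
        obtain ⟨G1, rfl⟩ := hdvd
        rw [natDegree_C_mul (X_sub_C_ne_zero a)] at hGd
        refine ih _ hlt g hg G1 h1 hh1 hGd ?_ rfl
        rw [map_mul, map_mul, evXY_C] at e
        have hne : aeval p'.x (X - C a) ≠ 0 := aeval_ne_zero p'.transc (X_sub_C_ne_zero a)
        apply mul_left_cancel₀ hne
        rw [← e]
        ring

include K in
theorem mem_span_range {g : F'}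
    (hg : ∀ w : Place L F', (∀ f : F, w.ord (ι f) = 0) → OrdGE w 0 g) :
    g ∈ Submodule.span L (Set.range ι) := by
  obtain ⟨x, hx⟩ := exists_transcendental (K := K) (F := F)
  have := finite_over_adjoin hx
  obtain ⟨p, -⟩ := exists_pres hx
  obtain ⟨G, q, hq, e⟩ := exists_generic_form p g hg
  set t := ι (aeval p.x q) with ht
  have ht0 : t ≠ 0 := by simpa [ht] using aeval_ne_zero p.transc hq
  have key : ∀ G : Polynomial (Polynomial L),
      (p.baseChange L F').ev G * t⁻¹ ∈ Submodule.span L (Set.range ι) := by
    intro G
    induction G using Polynomial.induction_on' with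
    | add a b ha hb => rw [map_add, add_mul]; exact add_mem ha hb
    | monomial j c =>
      induction c using Polynomial.induction_on' with
      | add a b ha hb => rw [map_add, map_add, add_mul]; exact add_mem ha hb
      | monomial i l =>
        rw [Pres.ev, ← C_mul_X_pow_eq_monomial, map_mul, map_pow, evXY_C, evXY_X, aeval_monomial,
          show algebraMap L F' l * (p.baseChange L F').x ^ i * (p.baseChange L F').y ^ j * t⁻¹
            = l • ι (p.x ^ i * p.y ^ j * (aeval p.x q)⁻¹) by
            simp [Algebra.smul_def, ht, map_inv₀]; ring]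
        exact Submodule.smul_mem _ _ (Submodule.subset_span ⟨_, rfl⟩)
  have := key G
  rwa [← e, mul_inv_cancel_right₀ ht0] at this

section combo

variable {J : Type*} (β : Module.Basis J K L)

/-- `Σ βⱼ · φⱼ`. -/
def combo (φ : J →₀ F) : F' := φ.sum fun j f => β j • ι f

omit hext in
theorem combo_add (φ ψ : J →₀ F) : combo (F' := F') β (φ + ψ) = combo β φ + combo β ψ :=
  Finsupp.sum_add_index' (fun j => by simp) fun j a b => by simp [map_add, smul_add]

theorem exists_combo_eq {g : F'} (hg : g ∈ Submodule.span L (Set.range ι)) :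
    ∃ φ : J →₀ F, combo β φ = g := by
  obtain ⟨c, rfl⟩ := Finsupp.mem_span_range_iff_exists_finsupp.1 hg
  clear hg
  induction c using Finsupp.induction with
  | zero => exact ⟨0, by simp [combo]⟩
  | single_add f l c hf hl ih =>
    obtain ⟨φ, hφ⟩ := ih
    refine ⟨(β.repr l).mapRange (fun k => k • f) (zero_smul K f) + φ, ?_⟩
    rw [combo_add, hφ, Finsupp.sum_add_index' (fun j => by simp) fun j a b => add_smul a b _,
      Finsupp.sum_single_index (by simp)]
    congr 1
    rw [combo, Finsupp.sum_mapRange_index (fun j => by simp)]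
    calc (β.repr l).sum (fun j k => β j • ι (k • f))
        = (β.repr l).sum (fun j k => (k • β j) • ι f) := by
          refine Finsupp.sum_congr fun j _ => ?_
          simp only [Algebra.smul_def, map_mul, ← IsScalarTower.algebraMap_apply]
          ring
      _ = ((β.repr l).sum fun j k => k • β j) • ι f := by rw [Finsupp.sum, Finsupp.sum, Finset.sum_smul]
      _ = l • ι f := by
          rw [show ((β.repr l).sum fun j k => k • β j) = l from β.linearCombination_repr l]

theorem ordGE_combo {v : Place K F} {k : ℤ} {φ : J →₀ F} :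
    OrdGE (extPlace v : Place L F') k (combo β φ) ↔ ∀ j, OrdGE v k (φ j) := by
  classical
  constructor
  · intro h j
    by_contra hj
    have hmem : ∀ i, φ i ≠ 0 ↔ i ∈ φ.support := fun i => Finsupp.mem_support_iff.symm
    have hjs : j ∈ φ.support := (hmem j).1 fun h0 => hj (h0 ▸ OrdGE.zero)
    obtain ⟨j0, hj0, hmin⟩ := φ.support.exists_min_image (fun i => v.ord (φ i)) ⟨j, hjs⟩
    have hφ0 := (hmem j0).2 hj0
    have hall : ∀ i, OrdGE v (v.ord (φ j0)) (φ i) := fun i => ordGE_iff.2 (by
      by_cases hi : φ i = 0
      · exact .inl hi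
      · exact .inr (hmin i ((hmem i).1 hi)))
    have hlt : v.ord (φ j0) < k := by
      have h1 := hmin j hjs
      simp [ordGE_iff, (hmem j).2 hjs] at hj
      omega
    choose c hc using fun i => exists_ordGE_succ_sub_smul hφ0 rfl (hall i)
    have hc0 : c j0 = 1 := by
      by_contra hne
      have h2 := hc j0
      rw [show φ j0 - c j0 • φ j0 = algebraMap K F (1 - c j0) * φ j0 by
        rw [Algebra.smul_def, map_sub, map_one]; ring] at h2
      have hne' : algebraMap K F (1 - c j0) ≠ 0 :=
        (_root_.map_ne_zero _).2 (sub_ne_zero.2 (Ne.symm hne))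
      rw [ordGE_iff, v.ord_mul hne' hφ0, ord_algebraMap] at h2
      rcases h2 with h2 | h2
      · exact mul_ne_zero hne' hφ0 h2
      · omega
    set s : L := ∑ i ∈ φ.support, c i • β i with hs
    have hs0 : s ≠ 0 := fun h0 => one_ne_zero (hc0.symm.trans
      (linearIndependent_iff'.1 β.linearIndependent φ.support c h0 j0 hj0))
    have hdecomp : combo (F' := F') β φ = algebraMap L F' s * ι (φ j0) +
        ∑ i ∈ φ.support, β i • ι (φ i - c i • φ j0) := by
      rw [hs, map_sum, Finset.sum_mul, ← Finset.sum_add_distrib]
      refine Finset.sum_congr rfl fun i _ => ?_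
      simp only [Algebra.smul_def, map_mul, map_sub, ← IsScalarTower.algebraMap_apply]
      ring
    have hne1 : algebraMap L F' s * ι (φ j0) ≠ 0 := mul_ne_zero (by simpa) (by simpa)
    have hord : (extPlace v : Place L F').ord (algebraMap L F' s * ι (φ j0)) = v.ord (φ j0) := by
      rw [Place.ord_mul _ (by simpa) (by simpa), ord_algebraMap, ord_extPlace, zero_add]
    obtain ⟨hne2, hord2⟩ := ord_add_of_lt (v := (extPlace v : Place L F')) hne1
      (g := ∑ i ∈ φ.support, β i • ι (φ i - c i • φ j0))
      (OrdGE.sum _ fun i _ => (ordGE_extPlace.2 (by rw [hord]; exact hc i)).smul _)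
    rw [hdecomp, ordGE_iff, hord2, hord] at h
    rcases h with h | h
    · exact hne2 h
    · omega
  · intro h
    exact OrdGE.sum _ fun j _ => (ordGE_extPlace.2 (h j)).smul _

theorem combo_eq_zero {φ : J →₀ F} (h : combo (F' := F') β φ = 0) : φ = 0 := by
  obtain ⟨v⟩ := exists_place (K := K) (F := F)
  ext j
  by_contra hj
  have := (ordGE_combo (v := v) β).1 (h ▸ OrdGE.zero (k := v.ord (φ j) + 1)) j
  simp [ordGE_iff] at this
  exact hj this

end combo

/-- Extension of divisors. -/
def extDiv : Divisor K F →+ Divisor L F' :=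
  Finsupp.mapDomain.addMonoidHom extPlace

@[simp] theorem extDiv_apply_extPlace (D : Divisor K F) (v : Place K F) :
    extDiv D (extPlace v : Place L F') = D v :=
  Finsupp.mapDomain_apply extPlace_injective D v

theorem extDiv_apply_generic (D : Divisor K F) {w : Place L F'}
    (hw : ∀ f : F, w.ord (ι f) = 0) : extDiv D w = 0 := by
  refine Finsupp.mapDomain_of_notMem_range _ _ ?_
  rintro ⟨v, rfl⟩
  obtain ⟨π, -, hπ⟩ := exists_ord_eq_one (v := v)
  have := hw π
  rw [ord_extPlace] at this
  omega

theorem mem_rr_iff {K F : Type*} [Field K] [Field F] [Algebra K F] {D : Divisor K F} {f : F} :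
    f ∈ riemannRochSpace D ↔ ∀ v : Place K F, OrdGE v (-D v) f := by
  simp only [OrdGE, neg_neg]
  rfl

theorem map_mem_rr_iff {D : Divisor K F} {f : F} :
    ι f ∈ riemannRochSpace (extDiv (L := L) (F' := F') D) ↔ f ∈ riemannRochSpace D := by
  simp only [mem_rr_iff]
  constructor
  · intro h v
    simpa [ordGE_extPlace] using h (extPlace v)
  · intro h w
    rcases eq_extPlace_or_isGeneric (K := K) (F := F) w with ⟨v, rfl⟩ | hw
    · simpa [ordGE_extPlace] using h v
    · rw [extDiv_apply_generic D hw, neg_zero]
      exact ordGE_iff.2 (.inr (hw f).ge)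

include K in
theorem rr_extDiv_eq_span (D : Divisor K F) :
    riemannRochSpace (extDiv (L := L) (F' := F') D) =
      Submodule.span L (ι '' (riemannRochSpace D : Set F)) := by
  refine le_antisymm (fun g hg => ?_) (Submodule.span_le.2 ?_)
  · rw [mem_rr_iff] at hg
    have hspan : g ∈ Submodule.span L (Set.range ι) := mem_span_range (K := K) fun w hw => by
      simpa [extDiv_apply_generic D hw] using hg w
    obtain ⟨β⟩ : Nonempty (Σ J : Set L, Module.Basis J K L) :=
      ⟨⟨_, Module.Basis.ofVectorSpace K L⟩⟩
    obtain ⟨φ, rfl⟩ := exists_combo_eq β.2 hspan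
    refine Submodule.sum_mem _ fun j _ => Submodule.smul_mem _ _ (Submodule.subset_span
      ⟨_, mem_rr_iff.2 fun v => (ordGE_combo (L := L) (F' := F') β.2).1 ?_ j, rfl⟩)
    simpa using hg (extPlace v)
  · rintro _ ⟨f, hf, rfl⟩
    exact map_mem_rr_iff.2 hf

theorem linearIndependent_map {I : Type*} {f : I → F} (hf : LinearIndependent K f) :
    LinearIndependent L (fun i => ι (f i)) := by
  classical
  rw [linearIndependent_iff']
  intro s c hsum i hi
  set β := Module.Basis.ofVectorSpace K L
  set φ : _ →₀ F := ∑ t ∈ s, (β.repr (c t)).mapRange (fun k => k • f t) (zero_smul K _) with hφ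
  have hc : combo (F' := F') β φ = 0 := by
    rw [← hsum, hφ, combo, ← Finsupp.sum_finsetSum_index (fun j => by simp)
      fun j a b => by simp [map_add, smul_add]]
    refine Finset.sum_congr rfl fun t _ => ?_
    rw [Finsupp.sum_mapRange_index (fun j => by simp)]
    conv_rhs => rw [← β.linearCombination_repr (c t), Finsupp.linearCombination_apply]
    rw [Finsupp.sum, Finsupp.sum, Finset.sum_smul]
    refine Finset.sum_congr rfl fun j _ => ?_
    simp only [Algebra.smul_def, map_mul, ← IsScalarTower.algebraMap_apply]
    ring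
  have h0 := combo_eq_zero β hc
  apply β.repr.injective
  rw [map_zero]
  ext j
  have hj : φ j = 0 := by rw [h0]; rfl
  rw [hφ, Finsupp.finsetSum_apply] at hj
  simp only [Finsupp.mapRange_apply] at hj
  simpa using linearIndependent_iff'.1 hf s _ hj i hi

theorem finrank_rr_extDiv (D : Divisor K F) :
    Module.finrank L (riemannRochSpace (extDiv (L := L) (F' := F') D)) =
      Module.finrank K (riemannRochSpace D) := by
  classical
  have := finite_riemannRochSpace D
  set b := Module.finBasis K (riemannRochSpace D)
  set f : Fin (Module.finrank K (riemannRochSpace D)) → F := fun i => (b i : F) with hf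
  have hspan : Submodule.span K (Set.range f) = riemannRochSpace D := by
    rw [hf, show Set.range (fun i => ((b i : riemannRochSpace D) : F)) =
      (riemannRochSpace D).subtype '' Set.range b by rw [← Set.range_comp]; rfl,
      Submodule.span_image, b.span_eq, Submodule.map_subtype_top]
  have hli : LinearIndependent K f := b.linearIndependent.map' _ (Submodule.ker_subtype _)
  have h2 : Submodule.span L (ι '' (riemannRochSpace D : Set F)) =
      Submodule.span L (Set.range fun i => ι (f i)) := by
    refine le_antisymm (Submodule.span_le.2 ?_) (Submodule.span_mono ?_)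
    · rintro _ ⟨g, hg, rfl⟩
      rw [SetLike.mem_coe, ← hspan, Submodule.mem_span_range_iff_exists_fun] at hg
      obtain ⟨c, rfl⟩ := hg
      rw [map_sum]
      refine Submodule.sum_mem _ fun i _ => ?_
      rw [show ι (c i • f i) = algebraMap K L (c i) • ι (f i) by
        simp only [Algebra.smul_def, map_mul, ← IsScalarTower.algebraMap_apply]]
      exact Submodule.smul_mem _ _ (Submodule.subset_span ⟨i, rfl⟩)
    · rintro _ ⟨i, rfl⟩
      exact ⟨_, (b i).2, rfl⟩
  rw [rr_extDiv_eq_span, h2, finrank_span_eq_card (linearIndependent_map hli), Fintype.card_fin]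

theorem degree_extDiv (D : Divisor K F) :
    Divisor.degree (extDiv (L := L) (F' := F') D) = Divisor.degree D := by
  induction D using Finsupp.induction with
  | zero => simp
  | single_add v n D _ _ ih =>
    rw [map_add, map_add, map_add, ih]
    simp [extDiv, deg_eq_one]

variable (K F L F') in
include hext in
/-- The genus does not change under extension of algebraically closed constants. -/
theorem genusFF_eq : genusFF L F' = genusFF K F := by
  obtain ⟨v⟩ := exists_place (K := K) (F := F)
  set D : Divisor K F :=
    Finsupp.single v (2 * (genusFF K F : ℤ) + 2 * (genusFF L F' : ℤ)) with hD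
  have hdeg : Divisor.degree D = 2 * (genusFF K F : ℤ) + 2 * (genusFF L F' : ℤ) := by
    rw [hD, Divisor.degree_single, deg_eq_one, Nat.cast_one, mul_one]
  have h1 := finrank_riemannRochSpace_of_large (D := D) (by omega)
  have h2 := finrank_riemannRochSpace_of_large (D := extDiv (L := L) (F' := F') D)
    (by rw [degree_extDiv]; omega)
  rw [finrank_rr_extDiv, degree_extDiv] at h2
  omega

end Fermat.Agent.Torsion.Descent
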