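import Fermat.Agent.Torsion.Descent.Specialize

/-!
# The `n`-torsion of `Pic⁰` does not change under extension of algebraically closed constants
-/

set_option autoImplicit false

noncomputable section

open AlgebraicCurve

namespace Fermat.Agent.Torsion.Descent

section single

variable {K F : Type*} [Field K] [Field F] [Algebra K F] [IsAlgClosed K] [CharZero K]
  [Fermat.Agent.Curve.IsFunctionField1 K F]

/-- The submodule of functions vanishing to order at least `k` at `v`. -/
def ordSubmodule (v : Place K F) (k : ℤ) : Submodule K F where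
  carrier := {f | OrdGE v k f}
  zero_mem' := OrdGE.zero
  add_mem' h h' := h.add h'
  smul_mem' c _ h := h.smul c

theorem exists_echelon (v : Place K F) :
    ∀ (N : ℕ) (V : Submodule K F) [Module.Finite K V] (b : ℤ),
      (∀ f ∈ V, OrdGE v b f) → Module.finrank K V = N →
      ∃ S : Finset F, S.card = N ∧ (∀ s ∈ S, s ∈ V ∧ s ≠ 0) ∧ Set.InjOn v.ord S := by
  intro N
  induction N using Nat.strong_induction_on with
  | _ N ih =>
    intro V _ b hb hN
    classical
    by_cases hV : V = ⊥
    · subst hV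
      exact ⟨∅, by simpa using hN, by simp, by simp⟩
    obtain ⟨f, hf, hf0⟩ := Submodule.exists_mem_ne_zero_of_ne_bot hV
    obtain ⟨m, ⟨s0, hs0, hs00, rfl⟩, hmin⟩ :=
      Int.exists_least_of_bdd (P := fun k => ∃ s ∈ V, s ≠ 0 ∧ v.ord s = k)
        ⟨b, fun k ⟨s, hs, hs0, hk⟩ => by
          have := ordGE_iff.1 (hb s hs)
          simp [hs0, hk] at this
          exact this⟩ ⟨_, f, hf, hf0, rfl⟩
    set V' := V ⊓ ordSubmodule v (v.ord s0 + 1) with hV'
    have hs0' : s0 ∉ V' := fun h => by
      have h1 : OrdGE v (v.ord s0 + 1) s0 := (Submodule.mem_inf.1 h).2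
      rw [ordGE_iff] at h1
      simp [hs00] at h1
    have hlt : Module.finrank K V' < Module.finrank K V :=
      Submodule.finrank_lt_finrank_of_lt (lt_of_le_of_ne inf_le_left fun h => hs0' (h ▸ hs0))
    have hfin' : Module.Finite K V' := Submodule.finiteDimensional_of_le inf_le_left
    have hle : V ≤ Submodule.span K {s0} ⊔ V' := by
      intro g hg
      have hgm : OrdGE v (v.ord s0) g := ordGE_iff.2 (by
        by_cases h0 : g = 0
        · exact .inl h0
        · exact .inr (hmin _ ⟨g, hg, h0, rfl⟩))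
      obtain ⟨c, hc⟩ := exists_ordGE_succ_sub_smul hs00 rfl hgm
      rw [show g = c • s0 + (g - c • s0) from (add_sub_cancel _ _).symm]
      exact Submodule.add_mem_sup (Submodule.smul_mem _ _ (Submodule.mem_span_singleton_self s0))
        ⟨sub_mem hg (V.smul_mem c hs0), hc⟩
    have h1 : Module.finrank K V ≤ 1 + Module.finrank K V' := by
      refine (Submodule.finrank_mono hle).trans ?_
      refine (Submodule.finrank_add_le_finrank_add_finrank _ _).trans ?_
      rw [finrank_span_singleton hs00]
    obtain ⟨S, hS, hSV, hinj⟩ := ih _ (hN ▸ hlt) V' (v.ord s0 + 1) (fun g hg => hg.2) rfl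
    refine ⟨insert s0 S, ?_, ?_, ?_⟩
    · rw [Finset.card_insert_of_notMem fun h => hs0' (hSV _ h).1, hS]
      omega
    · intro s hs
      rcases Finset.mem_insert.1 hs with rfl | hs
      · exact ⟨hs0, hs00⟩
      · exact ⟨(hSV _ hs).1.1, (hSV _ hs).2⟩
    · rw [Finset.coe_insert, Set.injOn_insert fun h => hs0' (hSV _ h).1]
      refine ⟨hinj, ?_⟩
      rintro ⟨t, ht, he⟩
      have h1 : OrdGE v (v.ord s0 + 1) t := (hSV _ ht).1.2
      rw [ordGE_iff] at h1
      simp [(hSV _ ht).2] at h1
      omega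

theorem combination_ord {v : Place K F} (S : Finset F) (hS : ∀ s ∈ S, s ≠ 0)
    (hinj : Set.InjOn v.ord S) (c : F → K) (h : ∃ s ∈ S, c s ≠ 0) :
    ∑ s ∈ S, c s • s ≠ 0 ∧ ∃ s ∈ S, v.ord (∑ t ∈ S, c t • t) = v.ord s := by
  classical
  obtain ⟨s, hs, hcs⟩ := h
  obtain ⟨s1, hs1, hmin⟩ := (S.filter fun t => c t ≠ 0).exists_min_image v.ord
    ⟨s, Finset.mem_filter.2 ⟨hs, hcs⟩⟩
  obtain ⟨hs1, hc1⟩ := Finset.mem_filter.1 hs1
  have hne : c s1 • s1 ≠ 0 := smul_ne_zero hc1 (hS _ hs1)
  have ho : v.ord (c s1 • s1) = v.ord s1 := by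
    rw [Algebra.smul_def, v.ord_mul ((_root_.map_ne_zero _).2 hc1) (hS _ hs1), ord_algebraMap,
      zero_add]
  obtain ⟨h1, h2⟩ := ord_add_of_lt (v := v) hne (g := ∑ t ∈ S.erase s1, c t • t) (by
    refine OrdGE.sum _ fun t ht => ?_
    obtain ⟨htne, ht⟩ := Finset.mem_erase.1 ht
    by_cases hct : c t = 0
    · simp [hct, OrdGE.zero]
    · refine OrdGE.smul _ (ordGE_iff.2 (.inr ?_))
      have h3 := hmin t (Finset.mem_filter.2 ⟨ht, hct⟩)
      have h4 : v.ord s1 ≠ v.ord t := fun h => htne (hinj ht hs1 h.symm)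
      rw [ho]; omega)
  rw [Finset.add_sum_erase S (fun t => c t • t) hs1] at h1 h2
  exact ⟨h1, s1, hs1, h2.trans ho⟩

theorem degree_nonneg_eq_zero {D : Divisor K F} (h : ∀ v, 0 ≤ D v)
    (hd : Divisor.degree D = 0) : D = 0 := by
  ext v
  rw [Divisor.degree, Finsupp.liftAddHom_apply, Finsupp.sum] at hd
  simp only [AddMonoidHom.coe_mulRight, deg_eq_one, Nat.cast_one, mul_one] at hd
  by_contra hne
  exact hne ((Finset.sum_eq_zero_iff_of_nonneg fun v _ => h v).1 hd v
    (Finsupp.mem_support_iff.2 hne))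

theorem isPrincipal_of_ordGE {D : Divisor K F} (hd : Divisor.degree D = 0) {f : F} (hf : f ≠ 0)
    (h : ∀ v, OrdGE v (D v) f) : Divisor.IsPrincipal D := by
  obtain ⟨E, hE, hEd⟩ := HasPrincipalDivisors.exists_divisor (K := K) f hf
  refine ⟨f, hf, fun v => ?_⟩
  have h0 : E - D = 0 := degree_nonneg_eq_zero (fun v => by
    have := ordGE_iff.1 (h v)
    simp [hf] at this
    rw [Finsupp.sub_apply, hE]
    omega) (by rw [map_sub, hd, hEd, sub_zero])
  rw [sub_eq_zero] at h0
  rw [← h0, hE]

theorem pic0_mk_eq_zero_iff {D : Divisor.degZero (K := K) (F := F)} :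
    Pic0.mk D = 0 ↔ Divisor.IsPrincipal (D : Divisor K F) :=
  QuotientAddGroup.eq_zero_iff _

end single

variable {K F L F' : Type*} [Field K] [Field F] [Algebra K F] [Field L] [Field F']
  [Algebra L F'] [Algebra K L] [Algebra K F'] [Algebra F F'] [IsScalarTower K L F']
  [IsScalarTower K F F']
  [IsAlgClosed K] [CharZero K] [Fermat.Agent.Curve.IsFunctionField1 K F]
  [IsAlgClosed L] [CharZero L] [Fermat.Agent.Curve.IsFunctionField1 L F']
  [hext : IsConstExt K F L F']

local notation "ι" => algebraMap F F'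

theorem isPrincipal_extDiv_iff {D : Divisor K F} (hd : Divisor.degree D = 0) :
    Divisor.IsPrincipal (extDiv (L := L) (F' := F') D) ↔ Divisor.IsPrincipal D := by
  constructor
  · rintro ⟨g, hg, hgD⟩
    have hmem : g ∈ riemannRochSpace (extDiv (L := L) (F' := F') (-D)) := by
      rw [mem_rr_iff]
      intro w
      rw [map_neg, Finsupp.neg_apply, neg_neg, hgD]
      exact ordGE_iff.2 (.inr le_rfl)
    have hne : riemannRochSpace (-D) ≠ ⊥ := by
      intro h
      rw [rr_extDiv_eq_span (K := K), h] at hmem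
      simp at hmem
      exact hg hmem
    obtain ⟨f, hf, hf0⟩ := Submodule.exists_mem_ne_zero_of_ne_bot hne
    exact isPrincipal_of_ordGE hd hf0 fun v => by simpa using mem_rr_iff.1 hf v
  · rintro ⟨f, hf, hfD⟩
    refine ⟨ι f, by simpa using hf, fun w => ?_⟩
    rcases eq_extPlace_or_isGeneric (K := K) (F := F) w with ⟨v, rfl⟩ | hw
    · rw [extDiv_apply_extPlace, ord_extPlace, hfD]
    · rw [extDiv_apply_generic D hw, hw]

/-- Base change on degree-zero divisors. -/
def extDegZero : Divisor.degZero (K := K) (F := F) →+ Divisor.degZero (K := L) (F := F') :=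
  ((extDiv (L := L) (F' := F')).domRestrict _).codRestrict _ fun D => by
    show Divisor.degree _ = 0
    rw [AddMonoidHom.domRestrict_apply, degree_extDiv]
    exact D.2

/-- Base change on `Pic⁰`. -/
def extPic : Pic0 K F →+ Pic0 L F' :=
  QuotientAddGroup.map _ _ (extDegZero (L := L) (F' := F')) fun D hD =>
    (isPrincipal_extDiv_iff D.2).2 hD

theorem extPic_injective : Function.Injective (extPic (K := K) (F := F) (L := L) (F' := F')) := by
  rw [injective_iff_map_eq_zero]
  intro x hx
  obtain ⟨D, rfl⟩ := Pic0.mk_surjective x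
  exact pic0_mk_eq_zero_iff.2 ((isPrincipal_extDiv_iff D.2).1 (pic0_mk_eq_zero_iff.1 hx))

/-- A function certificate that a degree-zero divisor is not principal. -/
theorem exists_certificate (P0 : Place K F) {E : Divisor L F'} (hd : Divisor.degree E = 0)
    (hE : ¬ Divisor.IsPrincipal E) :
    ∃ (m : ℕ) (S : Finset F'), 2 * genusFF K F ≤ m ∧ S.card + genusFF K F = m + 1 ∧
      (∀ s ∈ S, s ≠ 0 ∧ (∀ w, E w - (Finsupp.single (extPlace P0 : Place L F') (m : ℤ)) w ≤ w.ord s) ∧
        (extPlace P0 : Place L F').ord s < E (extPlace P0)) ∧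
      Set.InjOn (extPlace P0 : Place L F').ord S := by
  classical
  set P := (extPlace P0 : Place L F') with hP
  set m := 2 * genusFF K F with hm
  set A : Divisor L F' := -E + Finsupp.single P (m : ℤ) with hA
  have hdeg : Divisor.degree A = m := by
    rw [hA, map_add, map_neg, hd, Divisor.degree_single, deg_eq_one]; simp
  have hg := genusFF_eq K F L F'
  have hdim := finrank_riemannRochSpace_of_large (D := A) (by omega)
  have := finite_riemannRochSpace A
  obtain ⟨S, hS, hSV, hinj⟩ := exists_echelon P _ (riemannRochSpace A) (-A P)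
    (fun f hf => mem_rr_iff.1 hf P) rfl
  refine ⟨m, S, le_rfl, by omega, fun s hs => ?_, hinj⟩
  have hbound : ∀ w, E w - (Finsupp.single P (m : ℤ)) w ≤ w.ord s := fun w => by
    have := ordGE_iff.1 (mem_rr_iff.1 (hSV _ hs).1 w)
    simp [(hSV _ hs).2, hA] at this
    omega
  refine ⟨(hSV _ hs).2, hbound, ?_⟩
  by_contra hge
  push Not at hge
  refine hE (isPrincipal_of_ordGE hd (hSV _ hs).2 fun w => ordGE_iff.2 (.inr ?_))
  by_cases hw : w = P
  · subst hw; exact hge
  · have := hbound w
    rwa [Finsupp.single_eq_of_ne hw, sub_zero] at this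

theorem exists_injection (n : ℕ) (X : Finset (Pic0.torsion L F' n)) :
    ∃ f : X → Pic0.torsion K F n, Function.Injective f := by
  classical
  obtain ⟨x0, hx0⟩ := exists_transcendental (K := K) (F := F)
  have := finite_over_adjoin hx0
  obtain ⟨p, -⟩ := exists_pres hx0
  obtain ⟨P0⟩ := exists_place (K := K) (F := F)
  set P := (extPlace P0 : Place L F')
  choose D hD using fun x : X => Pic0.mk_surjective (x.1 : Pic0 L F')
  have hprin : ∀ x : X, Divisor.IsPrincipal ((n : ℤ) • (D x : Divisor L F')) := fun x => by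
    have h := Pic0.mem_torsion.1 x.1.2
    rw [← hD] at h
    exact pic0_mk_eq_zero_iff.1 (show Pic0.mk ((n : ℤ) • D x) = 0 from h)
  choose f hf0 hfD using hprin
  set Q := {q : X × X // q.1 ≠ q.2}
  have hnp : ∀ q : Q, ¬ Divisor.IsPrincipal ((D q.1.1 : Divisor L F') - (D q.1.2 : Divisor L F')) := fun q h => by
    apply q.2
    apply Subtype.ext; apply Subtype.ext
    rw [← hD, ← hD, ← sub_eq_zero]
    exact (pic0_mk_eq_zero_iff (D := D q.1.1 - D q.1.2)).2 h
  have hdegE : ∀ q : Q, Divisor.degree ((D q.1.1 : Divisor L F') - (D q.1.2 : Divisor L F')) = 0 := fun q => by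
    rw [map_sub, (D q.1.1).2, (D q.1.2).2, sub_zero]
  choose m cert hm hcard hcert hinj using fun q : Q => exists_certificate P0 (hdegE q) (hnp q)
  have hcert0 : ∀ (q : Q) (s : cert q), (s : F') ≠ 0 := fun q s => (hcert q s.1 s.2).1
  choose div hdiv hdivdeg using fun (q : Q) (s : cert q) =>
    HasPrincipalDivisors.exists_divisor (K := L) (s : F') (hcert0 q s)
  set W : Finset (Place L F') := {P} ∪ (Finset.univ.biUnion fun x => (D x : Divisor L F').support) ∪
    (Finset.univ.biUnion fun q => Finset.univ.biUnion fun s => (div q s).support) with hW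
  obtain ⟨S0, hS0⟩ := exists_injOn (F' := F') p W
  choose S1 hS1 using fun x => exists_spec_fun (L := L) (F' := F') p (f x) (hf0 x)
  choose S2 hS2 using fun (q : Q) (s : cert q) => exists_spec_fun (L := L) (F' := F') p (s : F') (hcert0 q s)
  set T : Finset L := S0 ∪ Finset.univ.biUnion S1 ∪
    Finset.univ.biUnion fun q => Finset.univ.biUnion (S2 q)
  -- a `K`-point of the algebra generated by `T` and its inverses
  set R : Subalgebra K L := Algebra.adjoin K ((T ∪ T.image fun t => t⁻¹ : Finset L) : Set L) with hR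
  have hft : Algebra.FiniteType K R := (Subalgebra.fg_iff_finiteType R).1 ⟨_, rfl⟩
  have hgood : GoodFor R T := fun t ht =>
    ⟨Algebra.subset_adjoin (by simp [ht]), Algebra.subset_adjoin (by simp; exact .inr ht)⟩
  obtain ⟨M, hM⟩ := Ideal.exists_maximal R
  let := Ideal.Quotient.field M
  have : Module.Finite K (R ⧸ M) := finite_of_finite_type_of_isJacobsonRing K (R ⧸ M)
  have : Algebra.IsIntegral K (R ⧸ M) := Algebra.IsIntegral.of_finite K _
  let χ : R →ₐ[K] K := ((AlgEquiv.ofBijective (Algebra.ofId K (R ⧸ M))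
    IsAlgClosed.algebraMap_bijective_of_isIntegral).symm.toAlgHom).comp (Ideal.Quotient.mkₐ K M)
  set π := sp (F' := F') p χ with hπ
  have hπinj := hS0 R χ (hgood.mono (by intro t ht; simp [T, ht]))
  have hπP : π P = P0 := sp_extPlace p χ P0
  have hdegmap : ∀ A : Divisor L F', Divisor.degree (Finsupp.mapDomain π A) = Divisor.degree A :=
    fun A => by
      rw [degree_eq_sum, degree_eq_sum]
      exact Finsupp.sum_mapDomain_index (fun _ => rfl) (fun _ _ _ => rfl)
  let Db : X → Divisor.degZero (K := K) (F := F) := fun x =>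
    ⟨Finsupp.mapDomain π (D x : Divisor L F'), by
      show Divisor.degree _ = 0
      rw [hdegmap]; exact (D x).2⟩
  have hsub : ∀ x, S1 x ⊆ T := fun x t ht => by
    simp only [T, Finset.mem_union, Finset.mem_biUnion]
    exact .inl (.inr ⟨x, Finset.mem_univ _, ht⟩)
  have hsub2 : ∀ q s, S2 q s ⊆ T := fun q s t ht => by
    simp only [T, Finset.mem_union, Finset.mem_biUnion]
    exact .inr ⟨q, Finset.mem_univ _, s, Finset.mem_univ _, ht⟩
  have htors : ∀ x, Pic0.mk (Db x) ∈ Pic0.torsion K F n := fun x => by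
    rw [Pic0.mem_torsion]
    refine (pic0_mk_eq_zero_iff (D := (n : ℤ) • Db x)).2 ?_
    obtain ⟨sb, hsb0, hsb⟩ := hS1 x R χ (hgood.mono (hsub x))
    refine ⟨sb, hsb0, fun v => ?_⟩
    rw [hsb _ (hfD x) v, AddSubgroupClass.coe_zsmul, Finsupp.mapDomain_smul]
  refine ⟨fun x => ⟨Pic0.mk (Db x), htors x⟩, fun x y hxy => ?_⟩
  by_contra hne
  set q : Q := ⟨(x, y), hne⟩
  have hprinc : Divisor.IsPrincipal ((Db x : Divisor K F) - (Db y : Divisor K F)) :=
    (pic0_mk_eq_zero_iff (D := Db x - Db y)).1 (by
      show Pic0.mk (Db x) - Pic0.mk (Db y) = 0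
      rw [sub_eq_zero]
      exact congrArg Subtype.val hxy)
  obtain ⟨g, hg0, hg⟩ := hprinc
  set E : Divisor L F' := (D x : Divisor L F') - (D y : Divisor L F') with hE
  set Eb : Divisor K F := (Db x : Divisor K F) - (Db y : Divisor K F) with hEb
  have hEbmap : Eb = Finsupp.mapDomain π E :=
    (map_sub (Finsupp.mapDomain.addMonoidHom π) (D x : Divisor L F') (D y : Divisor L F')).symm
  have hPW : P ∈ W := by simp [hW]
  have hsuppE : E.support ⊆ W := fun w hw => by
    have := Finsupp.support_sub hw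
    simp only [hW, Finset.mem_union, Finset.mem_biUnion] at this ⊢
    rcases this with h | h
    · exact .inl (.inr ⟨x, Finset.mem_univ _, h⟩)
    · exact .inl (.inr ⟨y, Finset.mem_univ _, h⟩)
  have hE0 : Eb P0 = E P := by
    rw [hEbmap, ← hπP]
    exact Finsupp.mapDomain_apply' (W : Set _) E (by simpa using hsuppE) hπinj hPW
  choose sb hsb0 hsbord using fun s : cert q => hS2 q s R χ (hgood.mono (hsub2 q s))
  have hord0 : ∀ s : cert q, P0.ord (sb s) = P.ord (s : F') := fun s => by
    rw [hsbord s (div q s) (hdiv q s) P0, ← hπP, ← hdiv q s P]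
    refine Finsupp.mapDomain_apply' (W : Set _) _ ?_ hπinj hPW
    intro w hw
    simp only [hW, Finset.mem_coe, Finset.mem_union, Finset.mem_biUnion]
    exact .inr ⟨q, Finset.mem_univ _, s, Finset.mem_univ _, hw⟩
  set A : Divisor K F := -Eb + Finsupp.single P0 (m q : ℤ) with hA
  have hdegA : Divisor.degree A = (m q : ℤ) := by
    rw [hA, map_add, map_neg, hEbmap, hdegmap, hdegE q, Divisor.degree_single, deg_eq_one]
    simp
  have hmem : ∀ s : cert q, sb s ∈ riemannRochSpace A := fun s => mem_rr_iff.2 fun v => by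
    refine ordGE_iff.2 (.inr ?_)
    have hdiff : (0 : Divisor L F') ≤ div q s - E + Finsupp.single P (m q : ℤ) := fun w => by
      have := (hcert q s.1 s.2).2.1 w
      simp only [Finsupp.coe_zero, Pi.zero_apply, Finsupp.add_apply, Finsupp.sub_apply, hdiv]
      simp only [q] at this ⊢
      linarith
    have h2 : (0 : ℤ) ≤ Finsupp.mapDomain π (div q s - E + Finsupp.single P (m q : ℤ)) v := by
      rw [Finsupp.mapDomain, Finsupp.sum_apply]
      refine Finset.sum_nonneg fun w _ => ?_
      simp only [Finsupp.single_apply]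
      split_ifs
      · exact hdiff w
      · exact le_rfl
    rw [Finsupp.mapDomain_add, Finsupp.mapDomain_single, hπP, Finsupp.add_apply,
      show Finsupp.mapDomain π (div q s - E) = Finsupp.mapDomain π (div q s) - Finsupp.mapDomain π E
        from map_sub (Finsupp.mapDomain.addMonoidHom π) _ _,
      Finsupp.sub_apply, ← hsbord s (div q s) (hdiv q s) v, ← hEbmap] at h2
    rw [hA, Finsupp.add_apply, Finsupp.neg_apply]
    linarith
  have hinjsb : Function.Injective sb := fun s t hst =>
    Subtype.ext (hinj q s.2 t.2 (by rw [← hord0, ← hord0, hst]))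
  set S : Finset F := Finset.univ.image sb
  have hSne : ∀ s ∈ S, s ≠ 0 := fun s hs => by
    obtain ⟨t, _, rfl⟩ := Finset.mem_image.1 hs
    exact hsb0 t
  have hSinj : Set.InjOn P0.ord S := by
    intro a ha b hb hab
    obtain ⟨s, -, rfl⟩ := Finset.mem_image.1 (Finset.mem_coe.1 ha)
    obtain ⟨t, -, rfl⟩ := Finset.mem_image.1 (Finset.mem_coe.1 hb)
    rw [hord0, hord0] at hab
    rw [Subtype.ext (hinj q s.2 t.2 hab)]
  have := finite_riemannRochSpace A
  have hdim := finrank_riemannRochSpace_of_large (D := A) (by have := hm q; omega)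
  have hli : LinearIndependent K (fun s : S => (⟨s.1, by
      obtain ⟨t, _, ht⟩ := Finset.mem_image.1 s.2
      exact ht ▸ hmem t⟩ : riemannRochSpace A)) := by
    refine LinearIndependent.of_comp (riemannRochSpace A).subtype ?_
    rw [linearIndependent_iff']
    intro u c hc s hs
    by_contra hcs
    refine (combination_ord (v := P0) S hSne hSinj
      (fun t => if h : t ∈ S then (if (⟨t, h⟩ : S) ∈ u then c ⟨t, h⟩ else 0) else 0)
      ⟨s.1, s.2, by simp [hs, hcs]⟩).1 ?_
    rw [← Finset.sum_coe_sort S]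
    calc ∑ t : S, _ = ∑ t : S, if t ∈ u then c t • (t : F) else 0 := by
          refine Finset.sum_congr rfl fun t _ => ?_
          simp only [t.2, dite_true, Subtype.coe_eta, ite_smul, zero_smul]
      _ = 0 := by rw [Finset.sum_ite_mem, Finset.univ_inter]; exact hc
  have hScard : Fintype.card S = Module.finrank K (riemannRochSpace A) := by
    rw [Fintype.card_coe, Finset.card_image_of_injective _ hinjsb, Finset.card_univ,
      Fintype.card_coe]
    have := hcard q
    omega
  have hne' : Nonempty S := by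
    rw [← Fintype.card_pos_iff, hScard]
    have := hm q
    omega
  have hgmem : g ∈ riemannRochSpace A := mem_rr_iff.2 fun v => ordGE_iff.2 (.inr (by
    rw [hA, Finsupp.add_apply, Finsupp.neg_apply, hg v]
    have : (0 : ℤ) ≤ (Finsupp.single P0 (m q : ℤ)) v := by
      rw [Finsupp.single_apply]; split_ifs <;> omega
    linarith))
  set B := basisOfLinearIndependentOfCardEqFinrank hli hScard
  have hrepr := congrArg Subtype.val (B.sum_repr ⟨g, hgmem⟩)
  simp only [B, basisOfLinearIndependentOfCardEqFinrank_repr_apply,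
    coe_basisOfLinearIndependentOfCardEqFinrank, Submodule.coe_sum, Submodule.coe_smul] at hrepr
  set c : F → K := fun t =>
    if h : t ∈ S then B.repr ⟨g, hgmem⟩ ⟨t, h⟩ else 0 with hc
  have hgc : ∑ t ∈ S, c t • t = g := by
    rw [← Finset.sum_coe_sort S, ← hrepr]
    refine Finset.sum_congr rfl fun t _ => ?_
    simp [hc, B]
  obtain ⟨-, s, hs, hsord⟩ := combination_ord (v := P0) S hSne hSinj c (by
    by_contra h
    push Not at h
    exact hg0 (hgc ▸ Finset.sum_eq_zero fun t ht => by rw [h t ht, zero_smul]))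
  obtain ⟨t, -, rfl⟩ := Finset.mem_image.1 hs
  have h1 := (hcert q t.1 t.2).2.2
  rw [hgc, hord0, ← hg P0, hE0] at hsord
  rw [hsord] at *
  exact lt_irrefl _ h1

variable (K F L F') in
include hext in
/-- The `n`-torsion of `Pic⁰` is unchanged by extension of algebraically closed constants. -/
theorem natCard_torsion_baseChange (n : ℕ) :
    Nat.card (Pic0.torsion L F' n) = Nat.card (Pic0.torsion K F n) := by
  classical
  set φ : Pic0.torsion K F n → Pic0.torsion L F' n := fun x => ⟨extPic x.1, by
    rw [Pic0.mem_torsion, ← map_zsmul, Pic0.mem_torsion.1 x.2, map_zero]⟩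
  have hφ : Function.Injective φ := fun x y h =>
    Subtype.ext (extPic_injective (congrArg Subtype.val h))
  rcases finite_or_infinite (Pic0.torsion L F' n) with hfin | hinf
  · have := Finite.of_injective φ hφ
    have := Fintype.ofFinite (Pic0.torsion L F' n)
    obtain ⟨f, hf⟩ := exists_injection (K := K) (F := F) n (Finset.univ : Finset (Pic0.torsion L F' n))
    refine le_antisymm ?_ (Nat.card_le_card_of_injective φ hφ)
    refine le_of_eq_of_le ?_ (Nat.card_le_card_of_injective f hf)
    simp
  · rcases finite_or_infinite (Pic0.torsion K F n) with hfin | hinf'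
    · obtain ⟨X, hX⟩ := Infinite.exists_subset_card_eq (Pic0.torsion L F' n)
        (Nat.card (Pic0.torsion K F n) + 1)
      obtain ⟨f, hf⟩ := exists_injection (K := K) (F := F) n X
      have := Nat.card_le_card_of_injective f hf
      simp [hX] at this
    · simp

end Fermat.Agent.Torsion.Descent
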