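import Fermat.Agent.Torsion.Descent.Val
import Fermat.Agent.Curve.Duality
import Fermat.Agent.Curve.Canonical

/-! Facts from the general theory of curves, in the form used for descent. -/

set_option autoImplicit false

noncomputable section

open AlgebraicCurve IntermediateField

namespace Fermat.Agent.Torsion.Descent

open Fermat.Agent.Curve (IsFunctionField1)

variable {K F : Type*} [Field K] [Field F] [Algebra K F] [IsAlgClosed K] [CharZero K]
  [IsFunctionField1 K F]

theorem finite_over_adjoin {f : F} (hf : Transcendental K f) :
    FiniteDimensional (adjoin K ({f} : Set F)) F := Fermat.Agent.Curve.finiteDimensional_adjoin hf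

/-- The number of poles equals the degree. -/
theorem sum_poles_eq {f : F} (hf : Transcendental K f) :
    ∃ S : Finset (Place K F), (∀ v, v ∈ S ↔ v.ord f < 0) ∧
      ∑ v ∈ S, -v.ord f = Module.finrank (adjoin K ({f} : Set F)) F := by
  classical
  set P := Fermat.Agent.Curve.poleDivisor (K := K) f with hP
  refine ⟨P.support, fun v => ?_, ?_⟩
  · rw [Finsupp.mem_support_iff, hP, Fermat.Agent.Curve.poleDivisor_apply]
    omega
  · rw [← Fermat.Agent.Curve.degree_poleDivisor hf, ← hP, Divisor.degree,
      Finsupp.liftAddHom_apply, Finsupp.sum]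
    refine Finset.sum_congr rfl fun v hv => ?_
    simp only [AddMonoidHom.coe_mulRight, Fermat.Agent.Curve.deg_eq_one, Nat.cast_one, mul_one]
    rw [Finsupp.mem_support_iff, hP, Fermat.Agent.Curve.poleDivisor_apply] at hv
    rw [hP, Fermat.Agent.Curve.poleDivisor_apply]
    omega

omit [CharZero K] in
theorem exists_place_of_valuationSubring (A : ValuationSubring F)
    (hK : ∀ a : K, algebraMap K F a ∈ A) (hA : A ≠ ⊤) :
    ∃ v : Place K F, v.toValuationSubring = A :=
  ⟨Fermat.Agent.Curve.placeOfValuationSubring A hK hA, rfl⟩

omit [IsAlgClosed K] [CharZero K] in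
theorem exists_transcendental : ∃ x : F, Transcendental K x :=
  (IsFunctionField1.exists_transcendental' (K := K) (F := F)).imp fun _ h => h.1

theorem finite_riemannRochSpace (D : Divisor K F) :
    Module.Finite K (riemannRochSpace D) := Fermat.Agent.Curve.finite_riemannRochSpace D

theorem finrank_riemannRochSpace_of_large {D : Divisor K F}
    (hD : 2 * (genusFF K F : ℤ) - 1 ≤ Divisor.degree D) :
    (Module.finrank K (riemannRochSpace D) : ℤ) = Divisor.degree D + 1 - genusFF K F := by
  have h1 := Fermat.Agent.Curve.riemann_roch D
  have h2 := Fermat.Agent.Curve.specialIndex_eq_zero_of_lt_degree (D := D) (by omega)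
  rw [h2] at h1
  simpa [Fermat.Agent.Curve.ell] using h1

end Fermat.Agent.Torsion.Descent
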