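import Fermat.Agent.Torsion.Descent.Inputs
import Mathlib.FieldTheory.PrimitiveElement

/-!
# Plane presentations of function fields
-/

set_option autoImplicit false

noncomputable section

open AlgebraicCurve IntermediateField Polynomial

namespace Fermat.Agent.Torsion.Descent

section ev

variable {K F : Type*} [Field K] [Field F] [Algebra K F]

/-- Evaluation of `G(X, Y)` at `(x, y)`. -/
def evXY (x y : F) : Polynomial (Polynomial K) →+* F :=
  eval₂RingHom (aeval x : Polynomial K →ₐ[K] F).toRingHom y

@[simp] theorem evXY_C (x y : F) (q : Polynomial K) : evXY x y (C q) = aeval x q := by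
  simp [evXY]

@[simp] theorem evXY_X (x y : F) : evXY x y (X : Polynomial (Polynomial K)) = y := by simp [evXY]

theorem evXY_eq_sum {G : Polynomial (Polynomial K)} {d : ℕ} (hG : G.natDegree < d) (x y : F) :
    evXY x y G = ∑ j ∈ Finset.range d, aeval x (G.coeff j) * y ^ j :=
  eval₂_eq_sum_range' _ hG y

theorem aeval_ne_zero {x : F} (hx : Transcendental K x) {q : Polynomial K} (hq : q ≠ 0) :
    aeval x q ≠ 0 := fun h => hx ⟨q, hq, h⟩

theorem aeval_mem_adjoin (x : F) (q : Polynomial K) :
    aeval x q ∈ adjoin K ({x} : Set F) := by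
  rw [← AdjoinSimple.coe_gen K x, IntermediateField.aeval_coe]
  exact SetLike.coe_mem _

theorem exists_num_den {x c : F} (hc : c ∈ adjoin K ({x} : Set F)) :
    ∃ r s : Polynomial K, s ≠ 0 ∧ c * aeval x s = aeval x r := by
  obtain ⟨r, s, rfl⟩ := (mem_adjoin_simple_iff K c).1 hc
  by_cases h : aeval x s = 0
  · exact ⟨0, 1, one_ne_zero, by simp [h]⟩
  · exact ⟨r, s, fun h0 => h (by simp [h0]), by rw [div_mul_cancel₀ _ h]⟩

/-- The map `K[X] → K(x)`. -/
def toSimple (x : F) : Polynomial K →+* adjoin K ({x} : Set F) :=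
  (aeval (AdjoinSimple.gen K x)).toRingHom

theorem coe_toSimple (x : F) (q : Polynomial K) :
    ((toSimple x q : adjoin K ({x} : Set F)) : F) = aeval x q := by
  rw [toSimple, AlgHom.toRingHom_eq_coe, RingHom.coe_coe, ← IntermediateField.aeval_coe,
    AdjoinSimple.coe_gen]

theorem aeval_map_toSimple (x y : F) (G : Polynomial (Polynomial K)) :
    aeval y (G.map (toSimple x)) = evXY x y G := by
  rw [aeval_def, eval₂_map, evXY, coe_eval₂RingHom]
  congr 1
  exact RingHom.ext fun q => coe_toSimple x q

theorem gen_of_adjoin_eq_top {x y : F} (hy : IsIntegral (adjoin K ({x} : Set F)) y)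
    (htop : adjoin (adjoin K ({x} : Set F)) ({y} : Set F) = ⊤) (g : F) :
    ∃ (G : Polynomial (Polynomial K)) (h : Polynomial K),
      h ≠ 0 ∧ g * aeval x h = evXY x y G := by
  set k := adjoin K ({x} : Set F)
  have hg : g ∈ Algebra.adjoin k ({y} : Set F) := by
    rw [← adjoin_simple_toSubalgebra_of_isAlgebraic hy.isAlgebraic, mem_toSubalgebra, htop]
    exact mem_top
  induction hg using Algebra.adjoin_induction with
  | mem z hz =>
    rw [Set.mem_singleton_iff] at hz
    exact ⟨X, 1, one_ne_zero, by simp [hz]⟩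
  | algebraMap c =>
    obtain ⟨r, s, hs, h⟩ := exists_num_den c.2
    exact ⟨C r, s, hs, by simpa using h⟩
  | add a b _ _ ha hb =>
    obtain ⟨G, h, hh, e⟩ := ha
    obtain ⟨G', h', hh', e'⟩ := hb
    refine ⟨G * C h' + G' * C h, h * h', mul_ne_zero hh hh', ?_⟩
    simp only [map_add, map_mul, evXY_C, ← e, ← e']
    ring
  | mul a b _ _ ha hb =>
    obtain ⟨G, h, hh, e⟩ := ha
    obtain ⟨G', h', hh', e'⟩ := hb
    refine ⟨G * G', h * h', mul_ne_zero hh hh', ?_⟩
    simp only [map_mul, ← e, ← e']
    ring

end ev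

/-- A plane presentation `F = K(x, y)`, `P(x, y) = 0`, with `P` monic in `Y`. -/
structure Pres (K F : Type*) [Field K] [Field F] [Algebra K F] where
  x : F
  y : F
  P : Polynomial (Polynomial K)
  monic : P.Monic
  transc : Transcendental K x
  root : evXY x y P = 0
  adjoin_y : adjoin (adjoin K ({x} : Set F)) ({y} : Set F) = ⊤
  deg_eq : P.natDegree = Module.finrank (adjoin K ({x} : Set F)) F

namespace Pres

variable {K F : Type*} [Field K] [Field F] [Algebra K F] (p : Pres K F)

/-- The degree in `Y`. -/
abbrev d : ℕ := p.P.natDegree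

/-- Evaluation at `(x, y)`. -/
abbrev ev : Polynomial (Polynomial K) →+* F := evXY p.x p.y

theorem isIntegral_y : IsIntegral (adjoin K ({p.x} : Set F)) p.y :=
  ⟨p.P.map (toSimple p.x), p.monic.map _, by
    rw [← aeval_def, aeval_map_toSimple, p.root]⟩

theorem finiteDimensional : FiniteDimensional (adjoin K ({p.x} : Set F)) F := by
  have := adjoin.finiteDimensional p.isIntegral_y
  rw [p.adjoin_y] at this
  exact Module.Finite.equiv (topEquiv (F := adjoin K ({p.x} : Set F)) (E := F)).toLinearEquiv

theorem natDegree_minpoly :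
    (minpoly (adjoin K ({p.x} : Set F)) p.y).natDegree = p.d := by
  have := adjoin.finrank p.isIntegral_y
  rw [p.adjoin_y] at this
  have h : p.d = Module.finrank (adjoin K ({p.x} : Set F))
      (⊤ : IntermediateField (adjoin K ({p.x} : Set F)) F) := by
    rw [IntermediateField.finrank_top', ← p.deg_eq]
  rw [h, this]

theorem map_P_eq_minpoly :
    p.P.map (toSimple p.x) = minpoly (adjoin K ({p.x} : Set F)) p.y := by
  refine (Polynomial.eq_of_monic_of_dvd_of_natDegree_le (minpoly.monic p.isIntegral_y)
    (p.monic.map _) (minpoly.dvd _ _ ?_) ?_)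
  · rw [aeval_map_toSimple, p.root]
  · rw [p.monic.natDegree_map, p.natDegree_minpoly]

theorem d_pos : 0 < p.d := by
  rw [← p.natDegree_minpoly]; exact minpoly.natDegree_pos p.isIntegral_y

theorem toSimple_injective : Function.Injective (toSimple (K := K) p.x) := by
  rw [injective_iff_map_eq_zero]
  intro q hq
  by_contra hne
  apply aeval_ne_zero p.transc hne
  rw [← coe_toSimple, hq, ZeroMemClass.coe_zero]

theorem minimal {G : Polynomial (Polynomial K)} (hdeg : G.natDegree < p.d) (h : p.ev G = 0) :
    G = 0 := by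
  apply Polynomial.map_injective _ p.toSimple_injective
  rw [Polynomial.map_zero]
  by_contra hne
  have h1 := natDegree_le_natDegree (minpoly.degree_le_of_ne_zero (adjoin K ({p.x} : Set F)) p.y hne
    (by rw [aeval_map_toSimple]; exact h))
  rw [natDegree_map_eq_of_injective p.toSimple_injective, p.natDegree_minpoly] at h1
  omega

theorem dvd_iff {G : Polynomial (Polynomial K)} : p.ev G = 0 ↔ p.P ∣ G := by
  refine ⟨fun h => ?_, fun ⟨Q, hQ⟩ => by simp [hQ, p.root]⟩
  rw [← modByMonic_eq_zero_iff_dvd p.monic]
  apply p.minimal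
  · exact natDegree_modByMonic_lt G p.monic (fun h1 => by
      have := p.d_pos; simp [Pres.d, h1] at this)
  · rw [modByMonic_eq_sub_mul_div, map_sub, map_mul, p.root, zero_mul, sub_zero, h]

theorem gen (g : F) : ∃ (G : Polynomial (Polynomial K)) (h : Polynomial K),
    h ≠ 0 ∧ G.natDegree < p.d ∧ g * aeval p.x h = p.ev G := by
  obtain ⟨G, h, hh, e⟩ := gen_of_adjoin_eq_top p.isIntegral_y p.adjoin_y g
  refine ⟨G %ₘ p.P, h, hh, natDegree_modByMonic_lt G p.monic (fun h1 => by
      have := p.d_pos; simp [Pres.d, h1] at this), ?_⟩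
  rw [modByMonic_eq_sub_mul_div, map_sub, map_mul, p.root, zero_mul, sub_zero]
  exact e

theorem separable [CharZero K] : (p.P.map (aeval p.x : Polynomial K →ₐ[K] F).toRingHom).Separable := by
  have : CharZero (adjoin K ({p.x} : Set F)) :=
    charZero_of_injective_algebraMap (algebraMap K _).injective
  have h : (p.P.map (toSimple p.x)).Separable := by
    rw [p.map_P_eq_minpoly]
    exact (minpoly.irreducible p.isIntegral_y).separable
  have h2 := h.map (f := algebraMap (adjoin K ({p.x} : Set F)) F)
  rw [Polynomial.map_map] at h2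
  convert h2 using 2
  congr 1
  exact RingHom.ext fun q => (coe_toSimple p.x q).symm

end Pres

/-- Presentations exist over any transcendental element. -/
theorem exists_pres {K F : Type*} [Field K] [Field F] [Algebra K F] [CharZero K] {x : F}
    (hx : Transcendental K x) [FiniteDimensional (adjoin K ({x} : Set F)) F] :
    ∃ p : Pres K F, p.x = x := by
  classical
  set k := adjoin K ({x} : Set F) with hk
  have : CharZero k := charZero_of_injective_algebraMap (algebraMap K _).injective
  obtain ⟨y, hy⟩ := Field.exists_primitive_element k F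
  have hyi : IsIntegral k y := IsIntegral.of_finite k y
  set m := minpoly k y with hm
  set d := m.natDegree with hd
  choose r s hs hrs using fun j => exists_num_den (x := x) (m.coeff j).2
  set c : Polynomial K := ∏ j ∈ Finset.range d, s j with hc
  have hc0 : c ≠ 0 := Finset.prod_ne_zero_iff.2 fun j _ => hs j
  set q : ℕ → Polynomial K :=
    fun j => r j * (∏ i ∈ (Finset.range d).erase j, s i) * c ^ (d - 1 - j) with hq
  set P : Polynomial (Polynomial K) := X ^ d + ∑ j ∈ Finset.range d, C (q j) * X ^ j with hP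
  have hdpos : 0 < d := minpoly.natDegree_pos hyi
  have hlt : (∑ j ∈ Finset.range d, C (q j) * X ^ j).degree < (d : WithBot ℕ) :=
    (degree_sum_le _ _).trans_lt ((Finset.sup_lt_iff (WithBot.bot_lt_coe _)).2 fun j hj =>
      (degree_C_mul_X_pow_le _ _).trans_lt (WithBot.coe_lt_coe.2 (Finset.mem_range.1 hj)))
  have hmon : P.Monic := monic_X_pow_add hlt
  have hdeg : P.natDegree = d := by
    refine natDegree_eq_of_degree_eq_some ?_
    rw [hP, degree_add_eq_left_of_degree_lt (by rwa [degree_X_pow]), degree_X_pow]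
  set c' := aeval x c with hc'
  have hc'0 : c' ≠ 0 := aeval_ne_zero hx hc0
  have hroot : evXY x (c' * y) P = 0 := by
    have h0 : y ^ d + ∑ j ∈ Finset.range d, (m.coeff j : F) * y ^ j = 0 := by
      have := minpoly.aeval k y
      rw [← hm, aeval_eq_sum_range, Finset.sum_range_succ, ← hd,
        (minpoly.monic hyi).coeff_natDegree, one_smul, add_comm] at this
      exact this
    have h1 : ∀ j ∈ Finset.range d,
        aeval x (q j) * (c' * y) ^ j = c' ^ d * ((m.coeff j : F) * y ^ j) := by
      intro j hj
      have hj' := Finset.mem_range.1 hj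
      have e : c' = aeval x (s j) * aeval x (∏ i ∈ (Finset.range d).erase j, s i) := by
        rw [hc', ← map_mul, hc, Finset.mul_prod_erase _ _ hj]
      have e2 : c' ^ d = c' * c' ^ (d - 1 - j) * c' ^ j := by
        rw [← pow_succ', ← pow_add]; congr 1; omega
      rw [hq]
      simp only [map_mul, map_pow, ← hc', ← hrs j, mul_pow, e2]
      nth_rewrite 3 [e]
      ring
    rw [hP, map_add, map_pow, evXY_X, map_sum]
    simp only [map_mul, map_pow, evXY_C, evXY_X]
    rw [Finset.sum_congr rfl h1, ← Finset.mul_sum, mul_pow, ← mul_add, h0, mul_zero]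
  have htop : adjoin k ({c' * y} : Set F) = ⊤ := by
    rw [eq_top_iff, ← hy, adjoin_le_iff, Set.singleton_subset_iff]
    have : c' ∈ k := aeval_mem_adjoin x c
    have h1 : algebraMap k F ⟨c', this⟩ ∈ adjoin k ({c' * y} : Set F) :=
      IntermediateField.algebraMap_mem _ _
    have h2 := mul_mem (inv_mem h1) (mem_adjoin_simple_self k (c' * y))
    rwa [show algebraMap k F ⟨c', this⟩ = c' from rfl, inv_mul_cancel_left₀ hc'0] at h2
  refine ⟨⟨x, c' * y, P, hmon, hx, hroot, htop, ?_⟩, rfl⟩
  rw [hdeg, hd, hm, ← adjoin.finrank hyi, hy, IntermediateField.finrank_top']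

end Fermat.Agent.Torsion.Descent
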