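import Fermat.Agent.Torsion.Descent.Inputs
import Mathlib.FieldTheory.IntermediateField.Adjoin.Basic
import Mathlib.RingTheory.Kaehler.Basic

/-!
# Extension of algebraically closed constants: behaviour of places
-/

set_option autoImplicit false

noncomputable section

open AlgebraicCurve IntermediateField

namespace Fermat.Agent.Torsion.Descent

/-- `F'` is generated over the larger constant field `L` by `F`. -/
class IsConstExt (K F L F' : Type*) [Field K] [Field F] [Algebra K F] [Field L] [Field F']
    [Algebra L F'] [Algebra F F'] : Prop where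
  adjoin_range : IntermediateField.adjoin L (Set.range (algebraMap F F')) = ⊤

section single

variable {K F : Type*} [Field K] [Field F] [Algebra K F] [IsAlgClosed K]

theorem mem_range_of_isAlgebraic {f : F} (hf : IsAlgebraic K f) :
    f ∈ Set.range (algebraMap K F) :=
  minpoly.degree_eq_one_iff.mp
    (IsAlgClosed.degree_eq_one_of_irreducible K (minpoly.irreducible hf.isIntegral))

theorem transcendental_of_notMem {f : F} (hf : f ∉ Set.range (algebraMap K F)) :
    Transcendental K f := fun h => hf (mem_range_of_isAlgebraic h)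

variable [CharZero K] [Fermat.Agent.Curve.IsFunctionField1 K F]

theorem transcendental_of_ord_ne_zero {f : F} {v : Place K F} (h : v.ord f ≠ 0) :
    Transcendental K f := transcendental_of_notMem fun ⟨c, hc⟩ => h (hc ▸ ord_algebraMap c)

theorem exists_pole (f : F) (hf : Transcendental K f) : ∃ v : Place K F, v.ord f < 0 := by
  obtain ⟨S, hS, hsum⟩ := sum_poles_eq hf
  have := finite_over_adjoin hf
  have hpos : 0 < Module.finrank (adjoin K ({f} : Set F)) F := Module.finrank_pos
  rcases S.eq_empty_or_nonempty with rfl | ⟨v, hv⟩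
  · simp at hsum; omega
  · exact ⟨v, (hS v).1 hv⟩

theorem exists_place : Nonempty (Place K F) := by
  obtain ⟨x, hx⟩ := exists_transcendental (K := K) (F := F)
  exact ⟨(exists_pole x hx).choose⟩

/-- A function whose only pole is `v`. -/
theorem exists_only_pole (v : Place K F) :
    ∃ f : F, v.ord f < 0 ∧ ∀ u : Place K F, u ≠ v → OrdGE u 0 f := by
  classical
  set D : Divisor K F := Finsupp.single v (2 * (genusFF K F : ℤ) + 1) with hD
  have hdeg : Divisor.degree D = 2 * (genusFF K F : ℤ) + 1 := by
    rw [hD, Divisor.degree_single, deg_eq_one, Nat.cast_one, mul_one]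
  have hdim := finrank_riemannRochSpace_of_large (D := D) (by omega)
  have := finite_riemannRochSpace D
  have hmem : ∀ f ∈ riemannRochSpace D, ∀ u, OrdGE u (-D u) f := fun f hf u => by
    unfold OrdGE; rw [neg_neg]; exact hf u
  by_contra hcon
  push Not at hcon
  have hle : riemannRochSpace D ≤ LinearMap.range (Algebra.linearMap K F) := by
    intro f hf
    by_contra hne
    have htr : Transcendental K f := transcendental_of_notMem hne
    obtain ⟨u, hu⟩ := exists_pole f htr
    have hf0 : f ≠ 0 := fun h => hne ⟨0, by simp [h]⟩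
    by_cases huv : u = v
    · subst huv
      obtain ⟨w, hwu, hw⟩ := hcon f hu
      have := hmem f hf w
      rw [hD, Finsupp.single_eq_of_ne hwu, neg_zero] at this
      exact hw this
    · have := hmem f hf u
      rw [hD, Finsupp.single_eq_of_ne huv, neg_zero, ordGE_iff] at this
      rcases this with h | h
      · exact hf0 h
      · omega
  have h1 : Module.finrank K (riemannRochSpace D) ≤ 1 := by
    refine (Submodule.finrank_mono hle).trans ?_
    exact (LinearMap.finrank_range_le (Algebra.linearMap K F)).trans (Module.finrank_self K).le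
  omega

end single

variable {K F L F' : Type*} [Field K] [Field F] [Algebra K F] [Field L] [Field F']
  [Algebra L F'] [Algebra K L] [Algebra K F'] [Algebra F F'] [IsScalarTower K L F']
  [IsScalarTower K F F']
  [IsAlgClosed K] [CharZero K] [Fermat.Agent.Curve.IsFunctionField1 K F]
  [IsAlgClosed L] [CharZero L] [Fermat.Agent.Curve.IsFunctionField1 L F']
  [hext : IsConstExt K F L F']

local notation "ι" => algebraMap F F'

include hext

theorem finite_and_finrank_le {f : F} (hf : Transcendental K f) :
    FiniteDimensional (adjoin L ({ι f} : Set F')) F' ∧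
      Module.finrank (adjoin L ({ι f} : Set F')) F' ≤
        Module.finrank (adjoin K ({f} : Set F)) F := by
  classical
  set k := adjoin K ({f} : Set F)
  set k' := adjoin L ({ι f} : Set F')
  have := finite_over_adjoin hf
  let b := Module.finBasis k F
  have hk : ∀ c ∈ k, ι c ∈ k' := by
    intro c hc
    have : k ≤ (k'.restrictScalars K).comap (IsScalarTower.toAlgHom K F F') := by
      rw [adjoin_le_iff, Set.singleton_subset_iff]
      exact mem_adjoin_simple_self L (ι f)
    exact this hc
  set S : Submodule k' F' := Submodule.span k' (Set.range fun i => ι (b i)) with hS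
  have hF : ∀ g : F, ι g ∈ S := by
    intro g
    rw [← b.sum_repr g, map_sum]
    refine Submodule.sum_mem _ fun i _ => ?_
    rw [IntermediateField.smul_def, smul_eq_mul, map_mul]
    exact Submodule.smul_mem S (⟨_, hk _ (b.repr g i).2⟩ : k')
      (Submodule.subset_span ⟨i, rfl⟩)
  have hmul : ∀ p q : F', p ∈ S → q ∈ S → p * q ∈ S := by
    intro p q hp hq
    induction hp using Submodule.span_induction with
    | mem p hp =>
      obtain ⟨i, rfl⟩ := hp
      induction hq using Submodule.span_induction with
      | mem q hq =>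
        obtain ⟨j, rfl⟩ := hq
        rw [← map_mul]; exact hF _
      | zero => simp
      | add a c _ _ ha hc => rw [mul_add]; exact add_mem ha hc
      | smul r a _ ha => rw [mul_smul_comm]; exact S.smul_mem r ha
    | zero => simp
    | add a c _ _ ha hc => rw [add_mul]; exact add_mem ha hc
    | smul r a _ ha => rw [smul_mul_assoc]; exact S.smul_mem r ha
  let A : Subalgebra k' F' := S.toSubalgebra (by simpa using hF 1) hmul
  have hfinS : FiniteDimensional k' S := FiniteDimensional.span_of_finite k' (Set.finite_range _)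
  have : FiniteDimensional k' A := hfinS
  let A' : IntermediateField k' F' :=
    A.toIntermediateField fun x hx => A.inv_mem_of_algebraic
      (x := ⟨x, hx⟩) ((IsAlgebraic.of_finite k' (⟨x, hx⟩ : A)).algebraMap)
  have htop : (⊤ : IntermediateField L F') ≤ A'.restrictScalars L := by
    rw [← IsConstExt.adjoin_range (K := K) (F := F) (L := L) (F' := F'), adjoin_le_iff]
    rintro _ ⟨g, rfl⟩
    exact hF g
  have hStop : S = ⊤ := Submodule.eq_top_iff'.2 fun z => htop (mem_top (x := z))
  have hfin : FiniteDimensional k' F' := by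
    have : FiniteDimensional k' (⊤ : Submodule k' F') := hStop ▸ hfinS
    exact Module.Finite.equiv (Submodule.topEquiv)
  refine ⟨hfin, ?_⟩
  have := finrank_range_le_card (R := k') (fun i => ι (b i))
  unfold Set.finrank at this
  rw [← hS, hStop, finrank_top, Fintype.card_fin] at this
  exact this

theorem transcendental_map {f : F} (hf : Transcendental K f) :
    Transcendental L (ι f) := by
  intro halg
  obtain ⟨c, hc⟩ := mem_range_of_isAlgebraic halg
  have hbot : adjoin L ({ι f} : Set F') = ⊥ := by
    rw [adjoin_simple_eq_bot_iff, mem_bot]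
    exact ⟨c, hc⟩
  have := (finite_and_finrank_le (L := L) (F' := F') hf).1
  rw [hbot] at this
  have : FiniteDimensional L F' := Module.Finite.trans (⊥ : IntermediateField L F') F'
  obtain ⟨x, hx⟩ := exists_transcendental (K := L) (F := F')
  exact hx (Algebra.IsAlgebraic.isAlgebraic x)

/-- The restriction of a place of `F'` to `F`, as a valuation subring. -/
def restrictRing (w : Place L F') : ValuationSubring F := w.toValuationSubring.comap ι

omit hext in
theorem mem_restrictRing {w : Place L F'} {f : F} :
    f ∈ restrictRing (F := F) w ↔ OrdGE w 0 (ι f) := mem_iff_ordGE (v := w)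

omit hext in
/-- The place below `w`, if there is a function of `F` of nonzero order at `w`. -/
theorem exists_restrict {w : Place L F'} (h : ∃ g : F, w.ord (ι g) ≠ 0) :
    ∃ (v : Place K F) (e : ℤ), 0 < e ∧ ∀ g : F, w.ord (ι g) = e * v.ord g := by
  obtain ⟨g0, hg0⟩ := h
  have hne : restrictRing (F := F) w ≠ ⊤ := by
    intro htop
    have hg : ι g0 ≠ 0 := fun h => hg0 (by simp [h])
    have h1 : OrdGE w 0 (ι g0) := mem_restrictRing.1 (htop ▸ ValuationSubring.mem_top _)
    have h2 : OrdGE w 0 (ι g0⁻¹) := mem_restrictRing.1 (htop ▸ ValuationSubring.mem_top _)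
    rw [ordGE_iff] at h1 h2
    rw [map_inv₀, w.ord_inv] at h2
    simp [hg] at h1 h2
    omega
  have hK : ∀ a : K, algebraMap K F a ∈ restrictRing (F := F) w := fun a => by
    rw [mem_restrictRing, ← IsScalarTower.algebraMap_apply,
      IsScalarTower.algebraMap_apply K L F']
    exact ordGE_algebraMap _
  obtain ⟨v, hv⟩ := exists_place_of_valuationSubring _ hK hne
  obtain ⟨π, hπ0, hπ⟩ := exists_ord_eq_one (v := v)
  refine ⟨v, w.ord (ι π), ?_, ?_⟩
  · have hiff : ∀ g : F, OrdGE v 0 g ↔ OrdGE w 0 (ι g) := fun g => by
      rw [← mem_restrictRing, ← hv, mem_iff_ordGE]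
    have h1 : OrdGE w 0 (ι π) := (hiff π).1 (ordGE_iff.2 (.inr (by omega)))
    have h2 : ¬ OrdGE w 0 (ι π⁻¹) := fun h => by
      have := ordGE_iff.1 ((hiff π⁻¹).2 h)
      rw [v.ord_inv] at this
      simp [hπ0] at this
      omega
    rw [ordGE_iff, map_inv₀, w.ord_inv] at h2
    rw [ordGE_iff] at h1
    simp [hπ0] at h1 h2
    omega
  · intro g
    rcases eq_or_ne g 0 with rfl | hg
    · simp
    set u := g * π ^ (-v.ord g) with hu
    have hu0 : u ≠ 0 := mul_ne_zero hg (zpow_ne_zero _ hπ0)
    have huv : v.ord u = 0 := by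
      rw [hu, v.ord_mul hg (zpow_ne_zero _ hπ0), v.ord_zpow, hπ]; ring
    have key : ∀ t : F, v.ord t = 0 → t ≠ 0 → 0 ≤ w.ord (ι t) := fun t ht ht0 => by
      have : t ∈ restrictRing (F := F) w :=
        hv ▸ mem_iff_ordGE.2 (ordGE_iff.2 (.inr ht.ge))
      rw [mem_restrictRing, ordGE_iff] at this
      simpa [ht0] using this
    have h1 := key u huv hu0
    have h2 := key u⁻¹ (by rw [v.ord_inv, huv, neg_zero]) (inv_ne_zero hu0)
    rw [map_inv₀, w.ord_inv] at h2
    have hz : w.ord (ι u) = 0 := by omega
    rw [hu, map_mul, map_zpow₀, w.ord_mul (by simp [hg]) (zpow_ne_zero _ (by simp [hπ0])),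
      w.ord_zpow] at hz
    linarith [mul_comm (v.ord g) (w.ord (ι π)), neg_mul (v.ord g) (w.ord (ι π))]

theorem existsUnique_above (v : Place K F) :
    (∃ w : Place L F', ∀ g : F, w.ord (ι g) = v.ord g) ∧
    ∀ (w₁ w₂ : Place L F') (e₁ e₂ : ℤ), 0 < e₁ → 0 < e₂ →
      (∀ g : F, w₁.ord (ι g) = e₁ * v.ord g) →
      (∀ g : F, w₂.ord (ι g) = e₂ * v.ord g) → w₁ = w₂ := by
  classical
  obtain ⟨f, hfv, hfo⟩ := exists_only_pole v
  have hf0 : f ≠ 0 := fun h => by simp [h] at hfv
  have htr : Transcendental K f := transcendental_of_ord_ne_zero hfv.ne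
  have htr' : Transcendental L (ι f) := transcendental_map htr
  obtain ⟨S, hS, hsum⟩ := sum_poles_eq htr
  obtain ⟨S', hS', hsum'⟩ := sum_poles_eq htr'
  have hSv : S = {v} := by
    ext u
    rw [hS, Finset.mem_singleton]
    refine ⟨fun h => by_contra fun hne => ?_, fun h => h ▸ hfv⟩
    have := ordGE_iff.1 (hfo u hne)
    simp [hf0] at this
    omega
  rw [hSv, Finset.sum_singleton] at hsum
  have hle : ∑ w ∈ S', -w.ord (ι f) ≤ -v.ord f := by
    rw [hsum', hsum]
    exact_mod_cast (finite_and_finrank_le (L := L) (F' := F') htr).2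
  -- every place over `v` contributes at least `-ord_v f`
  have hmem : ∀ (w : Place L F') (e : ℤ), 0 < e → (∀ g : F, w.ord (ι g) = e * v.ord g) →
      w ∈ S' := fun w e he h => (hS' w).2 (by rw [h]; nlinarith)
  obtain ⟨w, hw⟩ := exists_pole _ htr'
  obtain ⟨u, e, he, hue⟩ := exists_restrict (K := K) ⟨f, hw.ne⟩
  have huv : u = v := by
    have : u.ord f < 0 := by rw [hue] at hw; nlinarith
    have := (hS u).2 this
    simpa [hSv] using this
  subst huv
  have h1 : -(e * u.ord f) ≤ -u.ord f := by
    rw [← hue]
    refine le_trans (Finset.single_le_sum (f := fun z => -z.ord (ι f)) (fun z hz => ?_)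
      ((hS' w).2 hw)) hle
    have := (hS' z).1 hz
    omega
  have he1 : e = 1 := by nlinarith
  subst he1
  refine ⟨⟨w, fun g => by rw [hue, one_mul]⟩, ?_⟩
  intro w₁ w₂ e₁ e₂ he₁ he₂ h₁ h₂
  by_contra hne
  have hsub : ({w₁, w₂} : Finset (Place L F')) ⊆ S' := by
    simp [Finset.insert_subset_iff, hmem w₁ e₁ he₁ h₁, hmem w₂ e₂ he₂ h₂]
  have := (Finset.sum_le_sum_of_subset_of_nonneg hsub (f := fun z => -z.ord (ι f))
    (fun z hz _ => by have := (hS' z).1 hz; omega)).trans hle
  rw [Finset.sum_pair hne, h₁, h₂] at this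
  nlinarith

/-- The unique place of `F'` above a place of `F`. -/
def extPlace (v : Place K F) : Place L F' :=
  (existsUnique_above (L := L) (F' := F') v).1.choose

@[simp]
theorem ord_extPlace (v : Place K F) (g : F) :
    (extPlace v : Place L F').ord (ι g) = v.ord g :=
  (existsUnique_above (L := L) (F' := F') v).1.choose_spec g

theorem ordGE_extPlace {v : Place K F} {k : ℤ} {g : F} :
    OrdGE (extPlace v : Place L F') k (ι g) ↔ OrdGE v k g := by
  simp [ordGE_iff]

theorem extPlace_injective :
    Function.Injective (extPlace (K := K) (F := F) (L := L) (F' := F')) := by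
  intro v v' h
  refine Place.ext (SetLike.ext fun g => ?_)
  rw [mem_iff_ordGE, mem_iff_ordGE, ← ordGE_extPlace (L := L) (F' := F'), h, ordGE_extPlace]


theorem eq_extPlace_or_isGeneric (w : Place L F') :
    (∃ v : Place K F, w = extPlace v) ∨ ∀ g : F, w.ord (ι g) = 0 := by
  by_cases h : ∃ g : F, w.ord (ι g) ≠ 0
  · obtain ⟨v, e, he, hv⟩ := exists_restrict (K := K) h
    exact .inl ⟨v, (existsUnique_above (L := L) (F' := F') v).2 w _ e 1 he one_pos hv
      (by simp)⟩
  · push Not at h
    exact .inr h

theorem finrank_adjoin_map {f : F} (hf : Transcendental K f) :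
    Module.finrank (adjoin L ({ι f} : Set F')) F' =
      Module.finrank (adjoin K ({f} : Set F)) F := by
  classical
  obtain ⟨S, hS, hsum⟩ := sum_poles_eq hf
  obtain ⟨S', hS', hsum'⟩ := sum_poles_eq (transcendental_map (L := L) (F' := F') hf)
  have : S' = S.image extPlace := by
    ext w
    rw [Finset.mem_image, hS']
    constructor
    · intro h
      rcases eq_extPlace_or_isGeneric (K := K) (F := F) w with ⟨v, rfl⟩ | hg
      · exact ⟨v, (hS v).2 (by simpa using h), rfl⟩
      · rw [hg] at h; omega
    · rintro ⟨v, hv, rfl⟩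
      simpa using (hS v).1 hv
  rw [this, Finset.sum_image (fun a _ b _ h => extPlace_injective h)] at hsum'
  simp only [ord_extPlace] at hsum'
  omega

end Fermat.Agent.Torsion.Descent
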