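import Fermat.Agent.Torsion.Descent.BaseChange

/-!
# Specialisation of functions and divisors along a `K`-point of a subalgebra of `L`
-/

set_option autoImplicit false

noncomputable section

open AlgebraicCurve IntermediateField Polynomial

namespace Fermat.Agent.Torsion.Descent

/-- All nonzero elements of `S` are units of `R`. -/
def GoodFor {K L : Type*} [Field K] [Field L] [Algebra K L] (R : Subalgebra K L) (S : Finset L) :
    Prop :=
  ∀ t ∈ S, t ∈ R ∧ t⁻¹ ∈ R

theorem GoodFor.mono {K L : Type*} [Field K] [Field L] [Algebra K L] {R : Subalgebra K L}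
    {S S' : Finset L} (h : GoodFor R S') (hS : S ⊆ S') : GoodFor R S := fun t ht => h t (hS ht)

section polys

variable {K L : Type*} [Field K] [Field L] [Algebra K L] {R : Subalgebra K L}

theorem chi_ne_zero (χ : R →ₐ[K] K) {t : R} (ht : (t : L) ≠ 0) (hti : (t : L)⁻¹ ∈ R) :
    χ t ≠ 0 := by
  intro h
  have : t * ⟨(t : L)⁻¹, hti⟩ = 1 := Subtype.ext (by simp [ht])
  have := congrArg χ this
  simp [h] at this

theorem chi_ne_of_sub (χ : R →ₐ[K] K) {s t : R} (hst : (s : L) ≠ t) (hi : ((s : L) - t)⁻¹ ∈ R) :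
    χ s ≠ χ t := by
  intro h
  exact chi_ne_zero χ (t := s - t) (by simpa [sub_eq_zero] using hst) (by simpa using hi)
    (by simp [h])

/-- Coefficients of a polynomial in two variables. -/
def coeffs2 (G : Polynomial (Polynomial L)) : Finset L :=
  letI := Classical.decEq L
  G.support.biUnion fun j => (G.coeff j).support.image (G.coeff j).coeff

theorem coeff_mem_coeffs2 {G : Polynomial (Polynomial L)} {i j : ℕ}
    (h : (G.coeff j).coeff i ≠ 0) : (G.coeff j).coeff i ∈ coeffs2 G := by
  classical
  refine Finset.mem_biUnion.2 ⟨j, ?_, Finset.mem_image.2 ⟨i, mem_support_iff.2 h, rfl⟩⟩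
  exact mem_support_iff.2 fun h0 => h (by simp [h0])

/-- The inclusion on polynomials in two variables. -/
def inclXY (R : Subalgebra K L) :
    Polynomial (Polynomial R) →+* Polynomial (Polynomial L) :=
  mapRingHom (mapRingHom R.val.toRingHom)

/-- Specialisation of polynomials in two variables. -/
def specXY (χ : R →ₐ[K] K) : Polynomial (Polynomial R) →+* Polynomial (Polynomial K) :=
  mapRingHom (mapRingHom χ.toRingHom)

theorem inclXY_injective : Function.Injective (inclXY R) :=
  Polynomial.map_injective _ (Polynomial.map_injective _ Subtype.val_injective)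

theorem exists_lift_one (h : Polynomial L) (hh : ∀ i, h.coeff i ∈ R) :
    ∃ hr : Polynomial R, hr.map R.val.toRingHom = h :=
  (Polynomial.mem_lifts _).1 ((Polynomial.lifts_iff_coeff_lifts _).2 fun i => ⟨⟨_, hh i⟩, rfl⟩)

theorem exists_lift {G : Polynomial (Polynomial L)} (hG : GoodFor R (coeffs2 G)) :
    ∃ Gr, inclXY R Gr = G := by
  have hmem : ∀ i j, (G.coeff j).coeff i ∈ R := fun i j => by
    by_cases h : (G.coeff j).coeff i = 0
    · rw [h]; exact zero_mem R
    · exact (hG _ (coeff_mem_coeffs2 h)).1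
  exact (Polynomial.mem_lifts _).1 ((Polynomial.lifts_iff_coeff_lifts _).2 fun j => by
    obtain ⟨hr, hhr⟩ := exists_lift_one (G.coeff j) fun i => hmem i j
    exact ⟨hr, hhr⟩)

/-- The base change of polynomials over `K` to `R`. -/
def baseXY (R : Subalgebra K L) : Polynomial (Polynomial K) →+* Polynomial (Polynomial R) :=
  mapRingHom (mapRingHom (algebraMap K R))

theorem inclXY_baseXY (G : Polynomial (Polynomial K)) :
    inclXY R (baseXY R G) = mapXY K L G := by
  simp only [inclXY, baseXY, mapXY, coe_mapRingHom, Polynomial.map_map, mapRingHom_comp]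
  rfl

theorem specXY_baseXY (χ : R →ₐ[K] K) (G : Polynomial (Polynomial K)) :
    specXY χ (baseXY R G) = G := by
  simp only [specXY, baseXY, coe_mapRingHom, Polynomial.map_map, mapRingHom_comp]
  rw [show χ.toRingHom.comp (algebraMap K R) = RingHom.id K from χ.comp_algebraMap,
    mapRingHom_id, Polynomial.map_id]

theorem eval_map_two {A B : Type*} [CommRing A] [CommRing B] (φ : A →+* B) (a b : A)
    (G : Polynomial (Polynomial A)) :
    eval₂ (evalRingHom (φ a)) (φ b) (G.map (mapRingHom φ)) =
      φ (eval₂ (evalRingHom a) b G) := by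
  rw [eval₂_map, hom_eval₂]
  congr 1
  ext <;> simp

theorem val_inclXY (a b : R) (G : Polynomial (Polynomial R)) :
    Pres.val (a : L) (b : L) (inclXY R G) = (eval₂ (evalRingHom a) b G : R) :=
  eval_map_two R.val.toRingHom a b G

theorem val_specXY (χ : R →ₐ[K] K) (a b : R) (G : Polynomial (Polynomial R)) :
    Pres.val (χ a) (χ b) (specXY χ G) = χ (eval₂ (evalRingHom a) b G) :=
  eval_map_two χ.toRingHom a b G

theorem evXY_map_eq_sum {A M : Type*} [Field A] [Field M] [Algebra A M] (φ : R →+* A) (x y : M)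
    (Gr : Polynomial (Polynomial R)) :
    evXY x y (Gr.map (mapRingHom φ)) = ∑ q ∈ Gr.support.sigma fun j => (Gr.coeff j).support,
      algebraMap A M (φ ((Gr.coeff q.1).coeff q.2)) * (x ^ q.2 * y ^ q.1) := by
  rw [evXY, coe_eval₂RingHom, eval₂_map, eval₂_eq_sum, Finset.sum_sigma, Polynomial.sum_def]
  refine Finset.sum_congr rfl fun j _ => ?_
  simp only [RingHom.comp_apply, coe_mapRingHom, AlgHom.toRingHom_eq_coe, RingHom.coe_coe]
  rw [aeval_def, eval₂_map, eval₂_eq_sum, Polynomial.sum_def, Finset.sum_mul]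
  exact Finset.sum_congr rfl fun i _ => by simp [mul_assoc]

end polys

variable {K F L F' : Type*} [Field K] [Field F] [Algebra K F] [Field L] [Field F']
  [Algebra L F'] [Algebra K L] [Algebra K F'] [Algebra F F'] [IsScalarTower K L F']
  [IsScalarTower K F F']
  [IsAlgClosed K] [CharZero K] [Fermat.Agent.Curve.IsFunctionField1 K F]
  [IsAlgClosed L] [CharZero L] [Fermat.Agent.Curve.IsFunctionField1 L F']
  [hext : IsConstExt K F L F'] (p : Pres K F)

local notation "ι" => algebraMap F F'

theorem ordGE_linearFunctional {v : Place K F} {k : ℤ} {I : Type*} (s : Finset I) (t : I → L)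
    (f : I → F) (ψ : L →ₗ[K] K)
    (h : OrdGE (extPlace v : Place L F') k (∑ i ∈ s, algebraMap L F' (t i) * ι (f i))) :
    OrdGE v k (∑ i ∈ s, ψ (t i) • f i) := by
  classical
  set β := Module.Basis.ofVectorSpace K L
  set φ : _ →₀ F := ∑ i ∈ s, (β.repr (t i)).mapRange (fun c => c • f i) (zero_smul K _) with hφ
  have hc : combo (F' := F') β φ = ∑ i ∈ s, algebraMap L F' (t i) * ι (f i) := by
    rw [hφ, combo, ← Finsupp.sum_finsetSum_index (fun j => by simp)
      fun j a b => by simp [map_add, smul_add]]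
    refine Finset.sum_congr rfl fun i _ => ?_
    rw [Finsupp.sum_mapRange_index (fun j => by simp)]
    conv_rhs => rw [← β.linearCombination_repr (t i), Finsupp.linearCombination_apply]
    rw [Finsupp.sum, Finsupp.sum, map_sum, Finset.sum_mul]
    refine Finset.sum_congr rfl fun j _ => ?_
    simp only [Algebra.smul_def, map_mul, ← IsScalarTower.algebraMap_apply]
    ring
  rw [← hc] at h
  have hall := (ordGE_combo β).1 h
  have hsum : ∑ i ∈ s, ψ (t i) • f i = φ.sum fun j g => ψ (β j) • g := by
    rw [hφ, ← Finsupp.sum_finsetSum_index (fun j => by simp) fun j a b => by simp [smul_add]]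
    refine Finset.sum_congr rfl fun i _ => ?_
    rw [Finsupp.sum_mapRange_index (fun j => by simp)]
    conv_lhs => rw [← β.linearCombination_repr (t i), Finsupp.linearCombination_apply, map_finsuppSum]
    rw [Finsupp.sum, Finsupp.sum, Finset.sum_smul]
    refine Finset.sum_congr rfl fun j _ => ?_
    rw [map_smul, smul_eq_mul, ← smul_assoc, smul_eq_mul, mul_comm]
  rw [hsum]
  exact OrdGE.sum _ fun j _ => (hall j).smul _

/-- The roots of `P(a, Y)` for a non-constant value `a`. -/
def fibreRoots (p : Pres K F) (F' : Type*) [Field F'] [Algebra L F'] [Algebra K F'] [Algebra F F']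
    [IsScalarTower K L F'] [IsScalarTower K F F'] [Fermat.Agent.Curve.IsFunctionField1 L F']
    [IsConstExt K F L F'] (a : L) : Finset L :=
  letI := Classical.propDecidable
  if h : a ∉ Set.range (algebraMap K L) then (exists_fibre_roots (F' := F') p h).choose else ∅

theorem fibreRoots_spec {a : L} (h : a ∉ Set.range (algebraMap K L)) :
    (fibreRoots p F' a).card = (p.baseChange L F').d ∧
      ∀ b ∈ fibreRoots p F' a, Pres.val a b (p.baseChange L F').P = 0 ∧
        Pres.val a b (p.baseChange L F').P.derivative ≠ 0 := by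
  rw [fibreRoots, dif_pos h]
  exact (exists_fibre_roots (F' := F') p h).choose_spec

/-- `v` is a specialisation of the place `w`. -/
def SpecRel {R : Subalgebra K L} (χ : R →ₐ[K] K) (w : Place L F') (v : Place K F) : Prop :=
  w = extPlace v ∨
    ((∀ f : F, w.ord (ι f) = 0) ∧ ∃ a b : R,
      VanAt w (ι p.x - algebraMap L F' a) ∧ VanAt w (ι p.y - algebraMap L F' b) ∧
      VanAt v (p.x - algebraMap K F (χ a)) ∧ VanAt v (p.y - algebraMap K F (χ b)))

/-- The specialisation map on places (junk where undefined). -/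
def sp {R : Subalgebra K L} (χ : R →ₐ[K] K) (w : Place L F') : Place K F :=
  letI := Classical.propDecidable
  if h : ∃ v, SpecRel p χ w v then h.choose else Classical.choice exists_place

theorem sp_extPlace {R : Subalgebra K L} (χ : R →ₐ[K] K) (v : Place K F) :
    sp p χ (extPlace v : Place L F') = v := by
  have h : ∃ u, SpecRel p χ (extPlace v : Place L F') u := ⟨v, .inl rfl⟩
  rw [sp, dif_pos h]
  rcases h.choose_spec with h1 | ⟨hg, -⟩
  · exact (extPlace_injective h1).symm
  · obtain ⟨π, -, hπ⟩ := exists_ord_eq_one (v := v)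
    have := hg π
    rw [ord_extPlace] at this
    omega

/-- The elements needed to specialise the fibres over `A`, separated from the values `A'`. -/
def pointData (F' : Type*) [Field F'] [Algebra L F'] [Algebra K F'] [Algebra F F']
    [IsScalarTower K L F'] [IsScalarTower K F F'] [Fermat.Agent.Curve.IsFunctionField1 L F']
    [IsConstExt K F L F'] (A A' : Finset L) : Finset L :=
  letI := Classical.decEq L
  A ∪ A' ∪ A.biUnion (fibreRoots p F') ∪ (A ×ˢ (A ∪ A')).image (fun q => q.1 - q.2) ∪
    A.biUnion fun a => (fibreRoots p F' a ×ˢ fibreRoots p F' a).image (fun q => q.1 - q.2)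

section points

variable {R : Subalgebra K L} (χ : R →ₐ[K] K) {A A' : Finset L}
  (hR : GoodFor R (pointData p F' A A'))

include hR

theorem mem_of_mem_A {a : L} (ha : a ∈ A) : a ∈ R := by
  classical exact (hR a (by simp [pointData, ha])).1

theorem mem_of_mem_A' {a : L} (ha : a ∈ A') : a ∈ R := by
  classical exact (hR a (by simp [pointData, ha])).1

theorem mem_of_mem_roots {a b : L} (ha : a ∈ A) (hb : b ∈ fibreRoots p F' a) : b ∈ R := by
  classical exact (hR b (by
    simp only [pointData, Finset.mem_union, Finset.mem_biUnion]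
    exact .inl (.inl (.inr ⟨a, ha, hb⟩)))).1

theorem chi_ne_A {a : R} {a' : R} (ha : (a : L) ∈ A) (ha' : (a' : L) ∈ A ∨ (a' : L) ∈ A')
    (hne : (a : L) ≠ a') : χ a ≠ χ a' := by
  classical
  refine chi_ne_of_sub χ hne (hR _ ?_).2
  simp only [pointData, Finset.mem_union, Finset.mem_image, Finset.mem_product]
  exact .inl (.inr ⟨(_, _), ⟨ha, ha'⟩, rfl⟩)

theorem chi_ne_B {a : L} {b b' : R} (ha : a ∈ A) (hb : (b : L) ∈ fibreRoots p F' a)
    (hb' : (b' : L) ∈ fibreRoots p F' a) (hne : (b : L) ≠ b') : χ b ≠ χ b' := by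
  classical
  refine chi_ne_of_sub χ hne (hR _ ?_).2
  simp only [pointData, Finset.mem_union, Finset.mem_biUnion, Finset.mem_image, Finset.mem_product]
  exact .inr ⟨a, ha, (_, _), ⟨hb, hb'⟩, rfl⟩

theorem root_spec {a b : R} (hak : (a : L) ∉ Set.range (algebraMap K L))
    (hb : (b : L) ∈ fibreRoots p F' (a : L)) : Pres.val (χ a) (χ b) p.P = 0 := by
  have h := ((fibreRoots_spec (F' := F') p hak).2 _ hb).1
  rw [Pres.baseChange_P, ← inclXY_baseXY (R := R), val_inclXY] at h
  rw [← specXY_baseXY χ p.P, val_specXY, show eval₂ (evalRingHom a) b (baseXY R p.P) = 0 from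
    Subtype.ext h, map_zero]

/-- The specialised fibre consists of the specialised points. -/
theorem fibre_spec {a : R} (ha : (a : L) ∈ A) (hak : (a : L) ∉ Set.range (algebraMap K L))
    {v : Place K F} (hv : VanAt v (p.x - algebraMap K F (χ a))) :
    v.ord (p.x - algebraMap K F (χ a)) = 1 ∧
      (∃ b : R, (b : L) ∈ fibreRoots p F' (a : L) ∧ VanAt v (p.y - algebraMap K F (χ b))) ∧
      ∀ v' : Place K F, ∀ b : R, (b : L) ∈ fibreRoots p F' (a : L) →
        VanAt v (p.y - algebraMap K F (χ b)) → VanAt v' (p.x - algebraMap K F (χ a)) →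
        VanAt v' (p.y - algebraMap K F (χ b)) → v' = v := by
  classical
  set B : Finset K := (fibreRoots p F' (a : L)).attach.image
    (fun b => χ ⟨b.1, mem_of_mem_roots p hR ha b.2⟩) with hB
  have hcard : B.card = p.d := by
    rw [hB, Finset.card_image_of_injective, Finset.card_attach, (fibreRoots_spec p hak).1,
      p.baseChange_d]
    intro b c hbc
    by_contra hne
    exact chi_ne_B p χ hR ha b.2 c.2 (fun h => hne (Subtype.ext h)) hbc
  obtain ⟨h1, ⟨c, hc, hc'⟩, h3⟩ := p.fibre hcard (fun c hc => by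
    obtain ⟨b, -, rfl⟩ := Finset.mem_image.1 hc
    exact root_spec p χ hR hak b.2) hv
  obtain ⟨b, -, rfl⟩ := Finset.mem_image.1 hc
  refine ⟨h1, ⟨⟨b.1, _⟩, b.2, hc'⟩, fun v' b' hb' => h3 v' _ ?_⟩
  exact Finset.mem_image.2 ⟨⟨b'.1, hb'⟩, Finset.mem_attach _ _, rfl⟩

theorem generic_point {w : Place L F'} {a : R} (ha : (a : L) ∈ A)
    (hak : (a : L) ∉ Set.range (algebraMap K L))
    (hwx : VanAt w (ι p.x - algebraMap L F' a)) :
    w.ord (ι p.x - algebraMap L F' a) = 1 ∧
    ∃ b : R, (b : L) ∈ fibreRoots p F' (a : L) ∧ VanAt w (ι p.y - algebraMap L F' b) ∧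
      VanAt (sp p χ w) (p.x - algebraMap K F (χ a)) ∧
      VanAt (sp p χ w) (p.y - algebraMap K F (χ b)) := by
  obtain ⟨hB, hBr⟩ := fibreRoots_spec (F' := F') p hak
  obtain ⟨h1, ⟨b, hb, hwy⟩, -⟩ := (p.baseChange L F').fibre hB (fun b hb => (hBr b hb).1)
    (v := w) (a := (a : L)) hwx
  refine ⟨h1, ⟨⟨b, mem_of_mem_roots p hR ha hb⟩, hb, hwy, ?_⟩⟩
  set b' : R := ⟨b, mem_of_mem_roots p hR ha hb⟩
  obtain ⟨v, hvx, hvy⟩ := p.exists_point (root_spec p χ hR hak (b := b') hb)
  have h : ∃ u, SpecRel p χ w u := ⟨v, .inr ⟨isGeneric_of_vanAt hak hwx, a, b', hwx, hwy, hvx, hvy⟩⟩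
  rw [sp, dif_pos h]
  rcases h.choose_spec with h2 | ⟨-, a₂, b₂, hax, hby, hux, huy⟩
  · exact absurd (x_value_of_extPlace (h2 ▸ hwx)) hak
  · obtain rfl : a₂ = a := Subtype.ext (value_unique hax hwx)
    obtain rfl : b₂ = b' := Subtype.ext (value_unique hby hwy)
    exact ⟨hux, huy⟩

theorem generic_eq_of_sp_eq {w w' : Place L F'} {a a' : R} (ha : (a : L) ∈ A)
    (hak : (a : L) ∉ Set.range (algebraMap K L))
    (ha' : (a' : L) ∈ A) (hak' : (a' : L) ∉ Set.range (algebraMap K L))
    (hwx : VanAt w (ι p.x - algebraMap L F' a)) (hwx' : VanAt w' (ι p.x - algebraMap L F' a'))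
    (h : sp p χ w = sp p χ w') : w = w' := by
  classical
  obtain ⟨-, b, hb, hwy, hvx, hvy⟩ := generic_point p χ hR ha hak hwx
  obtain ⟨-, b', hb', hwy', hvx', hvy'⟩ := generic_point p χ hR ha' hak' hwx'
  rw [← h] at hvx' hvy'
  obtain rfl : a = a' := by
    by_contra hne
    exact chi_ne_A p χ hR ha (.inl ha') (fun h => hne (Subtype.ext h))
      (value_unique hvx hvx')
  obtain rfl : b = b' := by
    by_contra hne
    exact chi_ne_B p χ hR ha hb hb' (fun h => hne (Subtype.ext h)) (value_unique hvy hvy')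
  obtain ⟨hB, hBr⟩ := fibreRoots_spec (F' := F') p hak
  exact (((p.baseChange L F').fibre hB (fun b hb => (hBr b hb).1) hwx).2.2 w' _ hb hwy hwx' hwy').symm

theorem sp_ne_of_not_vanAt {w : Place L F'} {a : R} (ha : (a : L) ∈ A)
    (hak : (a : L) ∉ Set.range (algebraMap K L))
    (hwx : VanAt w (ι p.x - algebraMap L F' a)) {v : Place K F}
    (hv : ∀ c : K, VanAt v (p.x - algebraMap K F c) → algebraMap K L c ∈ A') :
    sp p χ w ≠ v := by
  classical
  intro h
  obtain ⟨-, b, -, -, hvx, -⟩ := generic_point p χ hR ha hak hwx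
  rw [h] at hvx
  have h1 := hv _ hvx
  have := chi_ne_A p χ hR ha (a' := algebraMap K R (χ a)) (.inr (by simpa using h1))
    (fun h0 => hak ⟨χ a, by simpa using h0.symm⟩)
  simp at this

end points

/-- The value of `x` at a place (zero at poles). -/
def xval (p : Pres K F) (w : Place L F') : L :=
  letI := Classical.propDecidable
  if h : ∃ a : L, VanAt w (ι p.x - algebraMap L F' a) then h.choose else 0

theorem xval_spec {w : Place L F'} {a : L} (h : VanAt w (ι p.x - algebraMap L F' a)) :
    xval p w = a := by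
  have h' : ∃ a : L, VanAt w (ι p.x - algebraMap L F' a) := ⟨a, h⟩
  rw [xval, dif_pos h']
  exact value_unique h'.choose_spec h

theorem vanAt_map_sub {v : Place K F} {c : K} :
    VanAt (extPlace v : Place L F') (ι p.x - algebraMap L F' (algebraMap K L c)) ↔
      VanAt v (p.x - algebraMap K F c) := by
  rw [← IsScalarTower.algebraMap_apply, IsScalarTower.algebraMap_apply K F F', ← map_sub,
    vanAt_iff_ordGE, vanAt_iff_ordGE, ordGE_extPlace]

/-- Data making the specialisation injective on a finite set of places. -/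
theorem exists_injOn (W : Finset (Place L F')) :
    ∃ S : Finset L, ∀ (R : Subalgebra K L) (χ : R →ₐ[K] K), GoodFor R S →
      Set.InjOn (sp (F' := F') p χ) W := by
  classical
  set A := (W.image (xval p)).filter (· ∉ Set.range (algebraMap K L))
  set A' := W.image (xval p)
  refine ⟨pointData p F' A A', fun R χ hR => ?_⟩
  have hmixed : ∀ w ∈ W, (∀ f : F, w.ord (ι f) = 0) → ∀ v, (extPlace v : Place L F') ∈ W →
      sp p χ w ≠ v := by
    intro w hw hgen v hv
    obtain ⟨a, hak, hwx⟩ := exists_generic_value p hgen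
    have haA : a ∈ A := Finset.mem_filter.2 ⟨Finset.mem_image.2 ⟨w, hw, xval_spec p hwx⟩, hak⟩
    refine sp_ne_of_not_vanAt p χ hR (a := ⟨a, mem_of_mem_A p hR haA⟩) haA hak hwx fun c hc => ?_
    exact Finset.mem_image.2 ⟨_, hv, xval_spec p ((vanAt_map_sub p).2 hc)⟩
  intro w hw w' hw' h
  rcases eq_extPlace_or_isGeneric (K := K) (F := F) w with ⟨v, rfl⟩ | hg <;>
  rcases eq_extPlace_or_isGeneric (K := K) (F := F) w' with ⟨v', rfl⟩ | hg'
  · rw [sp_extPlace, sp_extPlace] at h; rw [h]
  · rw [sp_extPlace] at h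
    exact absurd h.symm (hmixed w' hw' hg' v hw)
  · rw [sp_extPlace] at h
    exact absurd h (hmixed w hw hg v' hw')
  · obtain ⟨a, hak, hwx⟩ := exists_generic_value p hg
    obtain ⟨a', hak', hwx'⟩ := exists_generic_value p hg'
    have haA : a ∈ A := Finset.mem_filter.2 ⟨Finset.mem_image.2 ⟨w, hw, xval_spec p hwx⟩, hak⟩
    have haA' : a' ∈ A := Finset.mem_filter.2 ⟨Finset.mem_image.2 ⟨w', hw', xval_spec p hwx'⟩, hak'⟩
    exact generic_eq_of_sp_eq p χ hR (a := ⟨a, mem_of_mem_A p hR haA⟩)
      (a' := ⟨a', mem_of_mem_A p hR haA'⟩) haA hak haA' hak' hwx hwx' h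

omit [IsAlgClosed K] [CharZero K] [Fermat.Agent.Curve.IsFunctionField1 K F] in
theorem ord_multiset_prod {K F : Type*} [Field K] [Field F] [Algebra K F] {v : Place K F}
    (m : Multiset F) (h : (0 : F) ∉ m) : v.ord m.prod = (m.map v.ord).sum := by
  induction m using Multiset.induction with
  | empty => simp
  | cons a t ih =>
    rw [Multiset.mem_cons, not_or] at h
    rw [Multiset.prod_cons, Multiset.map_cons, Multiset.sum_cons,
      v.ord_mul (fun h0 => h.1 h0.symm) (Multiset.prod_ne_zero h.2), ih h.2]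

omit [IsAlgClosed K] [CharZero K] [Fermat.Agent.Curve.IsFunctionField1 K F] in
theorem degree_eq_sum {k M : Type*} [Field k] [Field M] [Algebra k M] [IsAlgClosed k] [CharZero k]
    [Fermat.Agent.Curve.IsFunctionField1 k M] (D : Divisor k M) :
    Divisor.degree D = D.sum fun _ n => n := by
  rw [Divisor.degree, Finsupp.liftAddHom_apply]
  exact Finsupp.sum_congr fun v _ => by simp [deg_eq_one]

/-- Lower bound on a specialised polynomial at a constant place. -/
theorem ordGE_spec_ext {R : Subalgebra K L} (χ : R →ₐ[K] K) {v : Place K F} {k : ℤ}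
    (Gr : Polynomial (Polynomial R))
    (h : OrdGE (extPlace v : Place L F') k ((p.baseChange L F').ev (inclXY R Gr))) :
    OrdGE v k (p.ev (specXY χ Gr)) := by
  classical
  obtain ⟨ψ, hψ⟩ := LinearMap.exists_extend χ.toLinearMap (p := R.toSubmodule)
  set I := Gr.support.sigma fun j => (Gr.coeff j).support
  have key1 := fun x y : F => evXY_map_eq_sum χ.toRingHom x y Gr
  have key2 := fun x y : F' => evXY_map_eq_sum R.val.toRingHom x y Gr
  rw [Pres.ev, specXY, coe_mapRingHom, key1]
  rw [Pres.ev, inclXY, coe_mapRingHom, key2] at h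
  simp only [Pres.baseChange_x, Pres.baseChange_y, ← map_pow, ← map_mul] at h
  have := ordGE_linearFunctional I (fun q => ((Gr.coeff q.1).coeff q.2 : L))
    (fun q => p.x ^ q.2 * p.y ^ q.1) ψ h
  simp only [Algebra.smul_def] at this
  have hψ' : ∀ r : R, ψ (r : L) = χ r := fun r => LinearMap.congr_fun hψ r
  simp only [hψ'] at this
  exact this

/-- Specialisation of one function, with its divisor. -/
theorem exists_spec_fun (s : F') (hs : s ≠ 0) :
    ∃ S : Finset L, ∀ (R : Subalgebra K L) (χ : R →ₐ[K] K), GoodFor R S →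
      ∃ sb : F, sb ≠ 0 ∧ ∀ D : Divisor L F', (∀ w, D w = w.ord s) →
        ∀ v, v.ord sb = Finsupp.mapDomain (sp p χ) D v := by
  classical
  set p' := p.baseChange L F' with hp'
  obtain ⟨D, hD, hDdeg⟩ := HasPrincipalDivisors.exists_divisor (K := L) s hs
  obtain ⟨G, h, hh, hGd, e⟩ := p'.gen s
  have hhx : aeval p'.x h ≠ 0 := aeval_ne_zero p'.transc hh
  have hevG : p'.ev G ≠ 0 := e ▸ mul_ne_zero hs hhx
  have hG0 : G ≠ 0 := fun h0 => hevG (by rw [h0, map_zero])
  obtain ⟨j0, hj0⟩ : ∃ j, G.coeff j ≠ 0 := by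
    by_contra hc; push Not at hc; exact hG0 (Polynomial.ext (by simpa using hc))
  obtain ⟨i0, hi0⟩ : ∃ i, (G.coeff j0).coeff i ≠ 0 := by
    by_contra hc; push Not at hc; exact hj0 (Polynomial.ext (by simpa using hc))
  -- the interesting values of `x`
  set A' := D.support.image (xval p) ∪ h.roots.toFinset with hA'
  set A := A'.filter (· ∉ Set.range (algebraMap K L)) with hA
  -- witnesses on the generic fibres
  have hwit : ∀ a ∈ A, ∀ b ∈ fibreRoots p F' a, ∃ (k : ℕ) (u G' Q : Polynomial (Polynomial L)),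
      Pres.val a b u ≠ 0 ∧ u * G - C (X - C a) ^ k * G' = p'.P * Q ∧
      ∀ w : Place L F', VanAt w (ι p.x - algebraMap L F' a) →
        VanAt w (ι p.y - algebraMap L F' b) → w.ord (p'.ev G) = k := by
    intro a ha b hb
    have hak := (Finset.mem_filter.1 ha).2
    obtain ⟨hB, hBr⟩ := fibreRoots_spec (F' := F') p hak
    obtain ⟨w, hwx, hwy⟩ := p'.exists_point (hBr b hb).1
    obtain ⟨h1, -, h3⟩ := p'.fibre hB (fun b hb => (hBr b hb).1) hwx
    have hnn : 0 ≤ w.ord (p'.ev G) := by
      have := ordGE_iff.1 (p'.ordGE_ev (Pres.ordGE_x_of_vanAt hwx) (Pres.ordGE_x_of_vanAt hwy) G)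
      simpa [hevG] using this
    obtain ⟨k, hk⟩ := Int.eq_ofNat_of_zero_le hnn
    obtain ⟨u, G', hu, Q, hQ⟩ := Pres.exists_witness hwx hwy h1 (hBr b hb).1 (hBr b hb).2 k G
      (ordGE_iff.2 (.inr hk.ge))
    refine ⟨k, u, G', Q, hu, hQ, fun w' hx' hy' => ?_⟩
    rw [h3 w' b hb hwy hx' hy', hk]
  choose! kk uu gg qq hu hq hord using hwit
  refine ⟨pointData p F' A A' ∪ coeffs2 G ∪ {h.leadingCoeff, (G.coeff j0).coeff i0} ∪
      A.biUnion (fun a => (fibreRoots p F' a).biUnion fun b =>
        coeffs2 (uu a b) ∪ coeffs2 (gg a b) ∪ coeffs2 (qq a b) ∪ {Pres.val a b (uu a b)}),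
    fun R χ hR => ?_⟩
  have hRp : GoodFor R (pointData p F' A A') := hR.mono (by intro t ht; simp [ht])
  have hRw : ∀ a ∈ A, ∀ b ∈ fibreRoots p F' a,
      GoodFor R (coeffs2 (uu a b) ∪ coeffs2 (gg a b) ∪ coeffs2 (qq a b) ∪
        {Pres.val a b (uu a b)}) := fun a ha b hb => hR.mono fun t ht => by
    simp only [Finset.mem_union, Finset.mem_biUnion]
    exact .inr ⟨a, ha, b, hb, by simpa only [Finset.mem_union, Finset.mem_singleton] using ht⟩
  obtain ⟨Gr, hGr⟩ := exists_lift (R := R) (G := G) (hR.mono (by intro t ht; simp [ht]))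
  have hlc := hR h.leadingCoeff (by simp)
  -- the lifted denominator
  set ms : Multiset R := h.roots.attach.map fun a =>
    ⟨a.1, mem_of_mem_A' p hRp (Finset.mem_union_right _ (Multiset.mem_toFinset.2 a.2))⟩ with hms
  have hmsval : ms.map Subtype.val = h.roots := by
    rw [hms, Multiset.map_map]; exact h.roots.attach_map_val
  have hfact : aeval p'.x h = algebraMap L F' h.leadingCoeff *
      (ms.map fun a : R => ι p.x - algebraMap L F' a).prod := by
    conv_lhs => rw [(IsAlgClosed.splits h).eq_prod_roots, ← hmsval]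
    rw [map_mul, map_multiset_prod, aeval_C, Multiset.map_map, Multiset.map_map]
    congr 2
    refine Multiset.map_congr rfl fun a _ => ?_
    simp [hp']
  set den : F := algebraMap K F (χ ⟨_, hlc.1⟩) *
    (ms.map fun a : R => p.x - algebraMap K F (χ a)).prod with hden
  have hlc0 : h.leadingCoeff ≠ 0 := leadingCoeff_ne_zero.2 hh
  have hnz : (0 : F) ∉ ms.map fun a : R => p.x - algebraMap K F (χ a) := fun h0 => by
    obtain ⟨a, -, ha⟩ := Multiset.mem_map.1 h0
    exact p.x_sub_ne_zero _ ha
  have hnz' : (0 : F') ∉ ms.map fun a : R => ι p.x - algebraMap L F' a := fun h0 => by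
    obtain ⟨a, -, ha⟩ := Multiset.mem_map.1 h0
    exact p'.x_sub_ne_zero (a : L) ha
  have hden0 : den ≠ 0 := mul_ne_zero ((_root_.map_ne_zero _).2 (chi_ne_zero χ hlc0 hlc.2))
    (Multiset.prod_ne_zero hnz)
  have hevGb : p.ev (specXY χ Gr) ≠ 0 := by
    intro h0
    have hz := p.minimal (natDegree_map_le.trans_lt ?_) h0
    · have hc : (G.coeff j0).coeff i0 = ((Gr.coeff j0).coeff i0 : L) := by
        rw [← hGr]; simp [inclXY]
      refine chi_ne_zero χ (t := (Gr.coeff j0).coeff i0) (hc ▸ hi0)
        (hc ▸ (hR _ (by simp)).2) ?_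
      have := congrArg (fun q => (q.coeff j0).coeff i0) hz
      simpa [specXY] using this
    · rw [← hGr, inclXY, coe_mapRingHom, natDegree_map_eq_of_injective
        (Polynomial.map_injective _ Subtype.val_injective)] at hGd
      rwa [p.baseChange_d] at hGd
  refine ⟨p.ev (specXY χ Gr) / den, div_ne_zero hevGb hden0, ?_⟩
  intro D' hD'
  rw [show D' = D from Finsupp.ext fun w => by rw [hD', hD]]
  have hordsb : ∀ v : Place K F, v.ord (p.ev (specXY χ Gr) / den) = v.ord (p.ev (specXY χ Gr)) -
      (ms.map fun a => v.ord (p.x - algebraMap K F (χ a))).sum := by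
    intro v
    rw [div_eq_mul_inv, v.ord_mul hevGb (inv_ne_zero hden0), v.ord_inv, hden,
      v.ord_mul ((_root_.map_ne_zero _).2 (chi_ne_zero χ hlc0 hlc.2))
        (Multiset.prod_ne_zero hnz), ord_algebraMap, ord_multiset_prod _ hnz, Multiset.map_map,
      zero_add, sub_eq_add_neg]
    rfl
  have hords : ∀ w : Place L F', w.ord s = w.ord (p'.ev G) -
      (ms.map fun a : R => w.ord (ι p.x - algebraMap L F' a)).sum := by
    intro w
    rw [← e, w.ord_mul hs hhx, hfact, w.ord_mul ((_root_.map_ne_zero _).2 hlc0)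
      (Multiset.prod_ne_zero hnz'), ord_algebraMap, ord_multiset_prod _ hnz', Multiset.map_map]
    simp [Function.comp_def]
  have hmsA' : ∀ a ∈ ms, (a : L) ∈ A' := fun a ha => by
    have : (a : L) ∈ h.roots := hmsval ▸ Multiset.mem_map_of_mem _ ha
    exact Finset.mem_union_right _ (Multiset.mem_toFinset.2 this)
  have hgenA : ∀ w ∈ D.support, (∀ f : F, w.ord (ι f) = 0) → ∃ a : R, (a : L) ∈ A ∧
      (a : L) ∉ Set.range (algebraMap K L) ∧ VanAt w (ι p.x - algebraMap L F' a) := by
    intro w hw hgen
    obtain ⟨a, hak, hwx⟩ := exists_generic_value p hgen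
    have haA : a ∈ A := Finset.mem_filter.2
      ⟨Finset.mem_union_left _ (Finset.mem_image.2 ⟨w, hw, xval_spec p hwx⟩), hak⟩
    exact ⟨⟨a, mem_of_mem_A p hRp haA⟩, haA, hak, hwx⟩
  have hmap : ∀ (v : Place K F) (w0 : Place L F'), sp p χ w0 = v →
      (∀ w ∈ D.support, sp p χ w = v → w = w0) → Finsupp.mapDomain (sp p χ) D v = D w0 := by
    intro v w0 hw0 huniq
    rw [Finsupp.mapDomain, Finsupp.sum_apply, Finsupp.sum, Finset.sum_eq_single w0]
    · rw [hw0, Finsupp.single_eq_same]
    · intro w hw hne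
      exact Finsupp.single_eq_of_ne fun h0 => hne (huniq w hw h0.symm)
    · intro hw
      rw [Finsupp.notMem_support_iff.1 hw]
      simp
  -- the lower bound at every place
  have hge : ∀ v : Place K F,
      Finsupp.mapDomain (sp p χ) D v ≤ v.ord (p.ev (specXY χ Gr) / den) := by
    intro v
    by_cases hfib : ∃ a : R, (a : L) ∈ A ∧ VanAt v (p.x - algebraMap K F (χ a))
    · obtain ⟨a, haA, hvx⟩ := hfib
      have hak := (Finset.mem_filter.1 haA).2
      obtain ⟨h1, ⟨b, hb, hvy⟩, h3⟩ := fibre_spec p χ hRp haA hak hvx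
      obtain ⟨w, hwx0, hwy⟩ := p'.exists_point (((fibreRoots_spec (F' := F') p hak).2 _ hb).1)
      have hwx : VanAt w (ι p.x - algebraMap L F' (a : L)) := hwx0
      obtain ⟨hw1, b', hb', hwy', hvx', hvy'⟩ := generic_point p χ hRp haA hak hwx
      obtain rfl : b' = b := Subtype.ext (value_unique hwy' hwy)
      have hspw : sp p χ w = v := h3 _ b' hb' hvy hvx' hvy'
      have huniq : ∀ w' ∈ D.support, sp p χ w' = v → w' = w := by
        intro w' hw' hsp
        rcases eq_extPlace_or_isGeneric (K := K) (F := F) w' with ⟨u, rfl⟩ | hgen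
        · rw [sp_extPlace] at hsp
          refine absurd hspw (sp_ne_of_not_vanAt p χ hRp haA hak hwx fun c hc => ?_)
          subst hsp
          exact Finset.mem_union_left _
            (Finset.mem_image.2 ⟨_, hw', xval_spec p ((vanAt_map_sub p).2 hc)⟩)
        · obtain ⟨a', ha', hak', hwx'⟩ := hgenA w' hw' hgen
          exact generic_eq_of_sp_eq p χ hRp ha' hak' haA hak hwx' hwx (hsp.trans hspw.symm)
      rw [hmap v w hspw huniq, hD, hords, hordsb]
      -- the denominators agree
      have hroot : ∀ a' ∈ ms, v.ord (p.x - algebraMap K F (χ a')) =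
          w.ord (ι p.x - algebraMap L F' a') := by
        intro a' ha'
        by_cases hne : a' = a
        · subst hne
          rw [h1]
          exact hw1.symm
        · have hc : χ a ≠ χ a' := chi_ne_A p χ hRp haA (.inr (hmsA' a' ha'))
            (fun h0 => hne (Subtype.ext h0).symm)
          have e1 : v.ord (p.x - algebraMap K F (χ a')) = 0 := by
            have hnot : ¬ VanAt v (p.x - algebraMap K F (χ a')) := fun hv' =>
              hc (value_unique hvx hv')
            have hreg := ordGE_iff.1 ((Pres.ordGE_x_of_vanAt hvx).sub (ordGE_algebraMap (χ a')))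
            rw [vanAt_iff] at hnot
            simp [p.x_sub_ne_zero] at hnot hreg
            omega
          have e2 : w.ord (ι p.x - algebraMap L F' (a' : L)) = 0 := by
            have hnot : ¬ VanAt w (ι p.x - algebraMap L F' (a' : L)) := fun hv' =>
              hne (Subtype.ext (value_unique hv' hwx))
            have hreg := ordGE_iff.1 ((Pres.ordGE_x_of_vanAt hwx).sub
              (ordGE_algebraMap (a' : L)))
            have hn0 : ι p.x - algebraMap L F' (a' : L) ≠ 0 := p'.x_sub_ne_zero (a' : L)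
            rw [vanAt_iff] at hnot
            simp [hn0] at hnot hreg
            omega
          rw [e1, e2]
      rw [Multiset.map_congr rfl hroot]
      -- the numerators
      obtain ⟨ur, hur⟩ := exists_lift ((hRw _ haA _ hb').mono
        (by intro t ht; simp [ht]) : GoodFor R (coeffs2 (uu a b')))
      obtain ⟨gr, hgr⟩ := exists_lift ((hRw _ haA _ hb').mono
        (by intro t ht; simp [ht]) : GoodFor R (coeffs2 (gg a b')))
      obtain ⟨qr, hqr⟩ := exists_lift ((hRw _ haA _ hb').mono
        (by intro t ht; simp [ht]) : GoodFor R (coeffs2 (qq a b')))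
      set k := kk (a : L) (b' : L) with hk
      have hid : ur * Gr = baseXY R p.P * qr + C (X - C a) ^ k * gr := by
        apply inclXY_injective
        have hτ : inclXY R (C (X - C a)) = C (X - C (a : L)) := by simp [inclXY]
        rw [RingHom.map_add, RingHom.map_mul, RingHom.map_mul, RingHom.map_mul, RingHom.map_pow,
          hur, hGr, hgr, hqr, inclXY_baseXY, hτ, ← sub_eq_iff_eq_add]
        exact hq _ haA _ hb'
      have hid' := congrArg (fun q => p.ev (specXY χ q)) hid
      have hτ' : p.ev (specXY χ (C (X - C a))) = p.x - algebraMap K F (χ a) := by simp [specXY]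
      simp only [map_add, map_mul, map_pow, specXY_baseXY, p.root, zero_mul, zero_add] at hid'
      rw [hτ'] at hid'
      have hu0 : ¬ VanAt v (p.ev (specXY χ ur)) := by
        intro hv0
        have hne : eval₂ (evalRingHom a) b' ur ≠ 0 := fun h0 => hu _ haA _ hb' (by
          rw [← hur, val_inclXY, h0]; rfl)
        have hmem := (hRw _ haA _ hb') (Pres.val (a : L) (b' : L) (uu a b')) (by simp)
        have hχ : χ (eval₂ (evalRingHom a) b' ur) ≠ 0 :=
          chi_ne_zero χ (fun h0 => hne (Subtype.ext h0)) (by rw [← val_inclXY, hur]; exact hmem.2)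
        rw [← val_specXY] at hχ
        apply not_vanAt_algebraMap (v := v) hχ
        rw [vanAt_iff_ordGE] at hv0 ⊢
        have := hv0.sub (vanAt_iff_ordGE.1 (Pres.vanAt_ev_sub hvx hvy (specXY χ ur)))
        simpa using this
      have hu1 : p.ev (specXY χ ur) ≠ 0 := fun h0 => hu0 (h0 ▸ vanAt_iff.2 (.inl rfl))
      have hx0 := Pres.ordGE_x_of_vanAt hvx
      have hy0 := Pres.ordGE_x_of_vanAt hvy
      have hu2 : v.ord (p.ev (specXY χ ur)) = 0 := by
        have := ordGE_iff.1 (p.ordGE_ev hx0 hy0 (specXY χ ur))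
        rw [vanAt_iff] at hu0
        simp [hu1] at this hu0
        omega
      have hord' := congrArg v.ord hid'
      rw [v.ord_mul hu1 hevGb, hu2, zero_add] at hord'
      have hg0 : p.ev (specXY χ gr) ≠ 0 := fun h0 => by
        rw [h0, mul_zero] at hid'
        exact mul_ne_zero hu1 hevGb hid'
      rw [v.ord_mul (pow_ne_zero _ (p.x_sub_ne_zero _)) hg0, ord_pow, h1] at hord'
      have hgn := ordGE_iff.1 (p.ordGE_ev hx0 hy0 (specXY χ gr))
      simp [hg0] at hgn
      rw [hord _ haA _ hb' w hwx hwy', ← hk, hord']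
      linarith
    · push Not at hfib
      have huniq : ∀ w' ∈ D.support, sp p χ w' = v → w' = extPlace v := by
        intro w' hw' hsp
        rcases eq_extPlace_or_isGeneric (K := K) (F := F) w' with ⟨u, rfl⟩ | hgen
        · rw [sp_extPlace] at hsp; rw [hsp]
        · obtain ⟨a', ha', hak', hwx'⟩ := hgenA w' hw' hgen
          obtain ⟨-, b, -, -, hvx, -⟩ := generic_point p χ hRp ha' hak' hwx'
          exact absurd (hsp ▸ hvx) (hfib a' ha')
      rw [hmap v (extPlace v) (sp_extPlace p χ v) huniq, hD, hords, hordsb]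
      have hroot : ∀ a' ∈ ms, v.ord (p.x - algebraMap K F (χ a')) =
          (extPlace v : Place L F').ord (ι p.x - algebraMap L F' a') := by
        intro a' ha'
        by_cases hk : (a' : L) ∈ Set.range (algebraMap K L)
        · obtain ⟨c, hc⟩ := hk
          have : a' = algebraMap K R c := Subtype.ext hc.symm
          rw [this, AlgHom.commutes]
          rw [show ((algebraMap K R c : R) : L) = algebraMap K L c from rfl,
            ← IsScalarTower.algebraMap_apply K L F', IsScalarTower.algebraMap_apply K F F',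
            ← map_sub, ord_extPlace]
          rfl
        · have haA : (a' : L) ∈ A := Finset.mem_filter.2 ⟨hmsA' a' ha', hk⟩
          have hnot := hfib a' haA
          have hn0 : ι p.x - algebraMap L F' (a' : L) ≠ 0 := p'.x_sub_ne_zero (a' : L)
          by_cases hx : OrdGE v 0 p.x
          · have hnot' : ¬ VanAt (extPlace v : Place L F') (ι p.x - algebraMap L F' (a' : L)) :=
              fun h0 => hk (x_value_of_extPlace h0)
            have hreg := ordGE_iff.1 (hx.sub (ordGE_algebraMap (χ a')))
            have hreg' := ordGE_iff.1 (((ordGE_extPlace (L := L) (F' := F')).2 hx).sub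
              (ordGE_algebraMap (a' : L)))
            rw [vanAt_iff] at hnot hnot'
            simp [p.x_sub_ne_zero, hn0] at hnot hnot' hreg hreg'
            omega
          · have hx0 : p.x ≠ 0 := fun h0 => hx (h0 ▸ OrdGE.zero)
            rw [ordGE_iff] at hx
            push Not at hx
            have e1 := (ord_add_of_lt (v := v) hx0 (g := -algebraMap K F (χ a'))
              ((ordGE_algebraMap _).neg.mono (by omega))).2
            have e2 := (ord_add_of_lt (v := (extPlace v : Place L F'))
              ((_root_.map_ne_zero _).2 hx0) (g := -algebraMap L F' (a' : L))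
              ((ordGE_algebraMap _).neg.mono (by rw [ord_extPlace]; omega))).2
            rw [← sub_eq_add_neg] at e1 e2
            rw [e1, e2, ord_extPlace]
      rw [Multiset.map_congr rfl hroot]
      have hlow := ordGE_spec_ext p χ (v := v)
        (k := (extPlace v : Place L F').ord (p'.ev G)) Gr (by
          rw [hGr]; exact ordGE_iff.2 (.inr le_rfl))
      rw [ordGE_iff] at hlow
      simp [hevGb] at hlow
      linarith
  -- equality by comparing degrees
  obtain ⟨E, hE, hEdeg⟩ := HasPrincipalDivisors.exists_divisor (K := K)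
    (p.ev (specXY χ Gr) / den) (div_ne_zero hevGb hden0)
  set Δ := E - Finsupp.mapDomain (sp p χ) D with hΔ
  have hΔ0 : ∀ v, 0 ≤ Δ v := fun v => by
    have := hge v
    rw [hΔ, Finsupp.sub_apply, hE]
    omega
  have hΔdeg : ∑ v ∈ Δ.support, Δ v = 0 := by
    have : Divisor.degree Δ = 0 := by
      rw [hΔ, map_sub, hEdeg, degree_eq_sum (Finsupp.mapDomain _ _),
        Finsupp.sum_mapDomain_index (fun _ => rfl) (fun _ _ _ => rfl),
        show (D.sum fun _ m => m) = Divisor.degree D from (degree_eq_sum D).symm, hDdeg, sub_zero]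
    rwa [degree_eq_sum] at this
  intro v
  have hz : Δ v = 0 := by
    by_contra hne
    have := (Finset.sum_eq_zero_iff_of_nonneg fun v _ => hΔ0 v).1 hΔdeg v
      (Finsupp.mem_support_iff.2 hne)
    exact hne this
  rw [hΔ, Finsupp.sub_apply, hE, sub_eq_zero] at hz
  exact hz

end Fermat.Agent.Torsion.Descent
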