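import Fermat.Prelude.Def_AlgebraicCurve_IsCurveOver
import Fermat.Prelude.Def_AlgebraicCurve_Repartitions

/-!
# Elementary facts on a single place of a function field over an algebraically closed field
-/

set_option autoImplicit false

noncomputable section

open AlgebraicCurve WithZero

namespace Fermat.Agent.Torsion.Descent

variable {K F : Type*} [Field K] [Field F] [Algebra K F] (v : Place K F)

/-- `f` is regular at `v`. -/
def RegAt (f : F) : Prop := v.adicValuation f ≤ 1

/-- `f` vanishes at `v` (`f = 0` allowed). -/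
def VanAt (f : F) : Prop := v.adicValuation f < 1

/-- `f` vanishes at `v` to order at least `k` (`f = 0` allowed). -/
def OrdGE (k : ℤ) (f : F) : Prop := v.adicValuation f ≤ exp (-k)

variable {v}

theorem ordGE_iff {f : F} {k : ℤ} : OrdGE v k f ↔ f = 0 ∨ k ≤ v.ord f := by
  rw [OrdGE, v.adicValuation_le_exp_iff, neg_neg]

theorem regAt_iff {f : F} : RegAt v f ↔ f = 0 ∨ 0 ≤ v.ord f := v.adicValuation_le_one_iff

theorem regAt_iff_ordGE {f : F} : RegAt v f ↔ OrdGE v 0 f := by
  simp [RegAt, OrdGE]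

theorem vanAt_iff {f : F} : VanAt v f ↔ f = 0 ∨ 0 < v.ord f := by
  rcases eq_or_ne f 0 with rfl | hf
  · simp [VanAt]
  · rw [VanAt, v.adicValuation_eq_exp_neg_ord hf, ← exp_zero, exp_lt_exp]
    simp [hf]

theorem vanAt_iff_ordGE {f : F} : VanAt v f ↔ OrdGE v 1 f := by
  rw [vanAt_iff, ordGE_iff, Int.add_one_le_iff.symm, zero_add]

theorem OrdGE.zero {k : ℤ} : OrdGE v k (0 : F) := by simp [OrdGE]

theorem OrdGE.add {k : ℤ} {f g : F} (hf : OrdGE v k f) (hg : OrdGE v k g) :
    OrdGE v k (f + g) :=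
  (Valuation.map_add _ _ _).trans (max_le hf hg)

theorem OrdGE.neg {k : ℤ} {f : F} (hf : OrdGE v k f) : OrdGE v k (-f) := by
  unfold OrdGE at *
  rwa [Valuation.map_neg]

theorem OrdGE.sub {k : ℤ} {f g : F} (hf : OrdGE v k f) (hg : OrdGE v k g) :
    OrdGE v k (f - g) := by
  rw [sub_eq_add_neg]; exact hf.add hg.neg

theorem OrdGE.mono {k l : ℤ} {f : F} (hf : OrdGE v l f) (h : k ≤ l) : OrdGE v k f :=
  le_trans hf (exp_le_exp.mpr (by omega))

theorem OrdGE.mul {k l : ℤ} {f g : F} (hf : OrdGE v k f) (hg : OrdGE v l g) :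
    OrdGE v (k + l) (f * g) := by
  unfold OrdGE at *
  rw [map_mul, neg_add, exp_add]
  exact mul_le_mul' hf hg

theorem OrdGE.sum {ι : Type*} {k : ℤ} (s : Finset ι) {f : ι → F}
    (h : ∀ i ∈ s, OrdGE v k (f i)) : OrdGE v k (∑ i ∈ s, f i) :=
  Valuation.map_sum_le _ h

theorem ordGE_algebraMap (a : K) : OrdGE v 0 (algebraMap K F a) := by
  simpa [OrdGE] using v.adicValuation_algebraMap_le_one a

theorem OrdGE.smul {k : ℤ} {f : F} (a : K) (hf : OrdGE v k f) : OrdGE v k (a • f) := by
  rw [Algebra.smul_def]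
  simpa using (ordGE_algebraMap (v := v) a).mul hf

theorem ord_algebraMap (a : K) : v.ord (algebraMap K F a) = 0 := by
  rcases eq_or_ne a 0 with rfl | ha
  · simp
  have h1 := ordGE_iff.1 (ordGE_algebraMap (v := v) a)
  have h2 := ordGE_iff.1 (ordGE_algebraMap (v := v) a⁻¹)
  rw [map_inv₀, v.ord_inv] at h2
  simp [ha] at h1 h2
  omega

theorem not_vanAt_algebraMap {a : K} (ha : a ≠ 0) : ¬ VanAt v (algebraMap K F a) := by
  rw [vanAt_iff]
  simp [ha, ord_algebraMap]

theorem ord_eq_of_ordGE {f : F} {k : ℤ} (hf : f ≠ 0) (h : OrdGE v k f)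
    (h' : ¬ OrdGE v (k + 1) f) : v.ord f = k := by
  rw [ordGE_iff] at h h'
  simp [hf] at h h'
  omega

/-- Equal order of the dominant summand. -/
theorem ord_add_of_lt {f g : F} (hf : f ≠ 0) (hg : OrdGE v (v.ord f + 1) g) :
    f + g ≠ 0 ∧ v.ord (f + g) = v.ord f := by
  have hfe : OrdGE v (v.ord f) f := ordGE_iff.2 (.inr le_rfl)
  have hnot : ¬ OrdGE v (v.ord f + 1) (f + g) := by
    intro h
    have := h.sub hg
    rw [add_sub_cancel_right, ordGE_iff] at this
    simp [hf] at this
  have hne : f + g ≠ 0 := fun h => hnot (by rw [h]; exact OrdGE.zero)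
  exact ⟨hne, ord_eq_of_ordGE hne (hfe.add (hg.mono (by omega))) hnot⟩

theorem ord_prod {ι : Type*} (s : Finset ι) {f : ι → F} (h : ∀ i ∈ s, f i ≠ 0) :
    v.ord (∏ i ∈ s, f i) = ∑ i ∈ s, v.ord (f i) := by
  classical
  induction s using Finset.induction with
  | empty => simp
  | insert a t ha ih =>
    rw [Finset.prod_insert ha, Finset.sum_insert ha, v.ord_mul (h a (by simp))
      (Finset.prod_ne_zero_iff.2 fun i hi => h i (by simp [hi])),
      ih fun i hi => h i (by simp [hi])]

theorem ord_pow (f : F) (n : ℕ) : v.ord (f ^ n) = n * v.ord f := by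
  simpa using v.ord_zpow f n

theorem mem_iff_ordGE {f : F} : f ∈ v.toValuationSubring ↔ OrdGE v 0 f := by
  constructor
  · intro h
    simpa [OrdGE] using v.adicValuation_le_one_of_mem h
  · intro h
    rcases (v.toValuationSubring.mem_or_inv_mem f) with h' | h'
    · exact h'
    rcases eq_or_ne f 0 with rfl | hf
    · exact zero_mem _
    have h2 : OrdGE v 0 f⁻¹ := by simpa [OrdGE] using v.adicValuation_le_one_of_mem h'
    rw [ordGE_iff] at h h2
    rw [v.ord_inv] at h2
    simp [hf] at h h2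
    have hu : IsUnit (⟨f⁻¹, h'⟩ : v.toValuationSubring) := by
      rw [← v.adicValuation_coe_eq_one_iff]
      simp [v.adicValuation_eq_exp_neg_ord hf, show v.ord f = 0 by omega]
    obtain ⟨u, hu⟩ := hu
    have : ((↑u⁻¹ : v.toValuationSubring) : F) = f := by
      have h3 : ((↑u⁻¹ * ↑u : v.toValuationSubring) : F) = 1 := by simp
      rw [MulMemClass.coe_mul, hu] at h3
      exact (mul_inv_eq_one₀ hf).mp h3
    exact this ▸ (↑u⁻¹ : v.toValuationSubring).2

theorem exists_ord_eq_one : ∃ π : F, π ≠ 0 ∧ v.ord π = 1 := by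
  obtain ⟨π, hπ⟩ := IsDiscreteValuationRing.exists_irreducible v.toValuationSubring
  exact ⟨π, by simpa using hπ.ne_zero, v.ord_coe_irreducible hπ⟩

theorem value_unique {f : F} {c d : K} (hc : VanAt v (f - algebraMap K F c))
    (hd : VanAt v (f - algebraMap K F d)) : c = d := by
  by_contra h
  apply not_vanAt_algebraMap (v := v) (sub_ne_zero.2 h)
  rw [vanAt_iff_ordGE] at *
  have := hd.sub hc
  simpa using this

section residue

variable [IsAlgClosed K] [IsCurveOver K F]

theorem deg_eq_one (v : Place K F) : v.deg = 1 := IsCurveOver.deg_eq_one_of_isAlgClosed v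

/-- The value at `v` of a function regular at `v`. -/
theorem exists_value {f : F} (hf : OrdGE v 0 f) :
    ∃ c : K, VanAt v (f - algebraMap K F c) := by
  have : Module.Finite K v.ResidueField := IsCurveOver.finiteResidue v
  have : Algebra.IsIntegral K v.ResidueField := Algebra.IsIntegral.of_finite K v.ResidueField
  have hs := (IsAlgClosed.algebraMap_bijective_of_isIntegral (k := K) (K := v.ResidueField)).2
  obtain ⟨c, hc⟩ := hs (IsLocalRing.residue _ ⟨f, mem_iff_ordGE.2 hf⟩)
  refine ⟨c, ?_⟩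
  rw [IsScalarTower.algebraMap_apply K v.toValuationSubring v.ResidueField] at hc
  rw [IsLocalRing.ResidueField.algebraMap_eq] at hc
  have : IsLocalRing.residue _ ((⟨f, mem_iff_ordGE.2 hf⟩ : v.toValuationSubring) -
      algebraMap K v.toValuationSubring c) = 0 := by
    rw [map_sub, hc, sub_self]
  rw [IsLocalRing.residue_eq_zero_iff, IsLocalRing.mem_maximalIdeal, mem_nonunits_iff] at this
  rw [← v.adicValuation_coe_eq_one_iff] at this
  have hle := v.adicValuation_le_one_of_mem
    (((⟨f, mem_iff_ordGE.2 hf⟩ : v.toValuationSubring) -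
      algebraMap K v.toValuationSubring c)).2
  exact lt_of_le_of_ne hle this

/-- Leading coefficient: two functions of the same order are proportional to leading order. -/
theorem exists_ordGE_succ_sub_smul {f g : F} {k : ℤ} (hf : f ≠ 0) (hk : v.ord f = k)
    (hg : OrdGE v k g) : ∃ c : K, OrdGE v (k + 1) (g - c • f) := by
  have hfi : OrdGE v (-k) f⁻¹ := ordGE_iff.2 (.inr (by rw [v.ord_inv, hk]))
  obtain ⟨c, hc⟩ := exists_value (v := v) (f := g * f⁻¹) (by simpa using hg.mul hfi)
  refine ⟨c, ?_⟩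
  have := (vanAt_iff_ordGE.1 hc).mul (ordGE_iff.2 (.inr hk.ge) : OrdGE v k f)
  rw [sub_mul, inv_mul_cancel_right₀ hf, ← Algebra.smul_def, add_comm] at this
  exact this

end residue

end Fermat.Agent.Torsion.Descent
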